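import Fermat.Agent.LT.A2.H999.LGFin

/-!
# Row LT, tower A2, leaf A2.03.1.1.08 `WX467.LocGoodOfRepC` (helper999), part 6: the inert case

OFF-MAIN.  `inertEtaC999 : InertEtaC`: at a good inert place, `η_v(ϖ) = -1`.
Proof: see the header of `EtaSpec.lean`.
-/

set_option autoImplicit false

open IsDedekindDomain NumberField AutomorphicForm MeasureTheory
open scoped MatrixGroups Topology RestrictedProduct

noncomputable section

namespace Fermat.Agent.LT.A2.H999

open Fermat.Agent.LT.H130 Fermat.Agent.LT.H556 Fermat.Agent.LT.A2 Fermat.Agent.LT.A2.WX467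
open Fermat.Agent.LT.H129

variable {K : Type} [Field K] [NumberField K] {v : HeightOneSpectrum (𝓞 K)}

attribute [local instance] borelMS999 borelSp999 secCount999 locCpt999

/-! ## Valuations -/

theorem lt_one_iff_le_exp_neg_one (x : WithZero (Multiplicative ℤ)) :
    x < 1 ↔ x ≤ WithZero.exp (-1 : ℤ) := by
  by_cases hx : x = 0
  · subst hx
    simp
  · obtain ⟨n, rfl⟩ : ∃ n : ℤ, x = WithZero.exp n := ⟨WithZero.log x, (WithZero.exp_log hx).symm⟩
    rw [← WithZero.exp_zero, WithZero.exp_lt_exp, WithZero.exp_le_exp]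
    omega

section Unif

variable {c : v.adicCompletion K}

theorem unif_ne_zero (hc : Valued.v c = WithZero.exp (-1 : ℤ)) : c ≠ 0 := by
  rintro rfl
  rw [map_zero] at hc
  exact WithZero.exp_ne_zero hc.symm

theorem unif_valued_lt_one (hc : Valued.v c = WithZero.exp (-1 : ℤ)) : Valued.v c < 1 := by
  rw [lt_one_iff_le_exp_neg_one, hc]

/-- `c⁻¹ x ∈ 𝒪_v ↔ v(x) < 1`, for a uniformiser `c`. -/
theorem inv_unif_mul_mem_iff (hc : Valued.v c = WithZero.exp (-1 : ℤ)) (x : v.adicCompletion K) :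
    c⁻¹ * x ∈ intSet v ↔ Valued.v x < 1 := by
  have hc0 : Valued.v c ≠ 0 := (Valuation.ne_zero_iff _).mpr (unif_ne_zero hc)
  rw [mem_intSet, map_mul, map_inv₀, inv_mul_le_iff₀ (zero_lt_iff.mpr hc0), mul_one, hc,
    lt_one_iff_le_exp_neg_one]

theorem div_unif_mem_iff (hc : Valued.v c = WithZero.exp (-1 : ℤ)) (x : v.adicCompletion K) :
    x / c ∈ intSet v ↔ Valued.v x < 1 := by
  rw [div_eq_inv_mul]
  exact inv_unif_mul_mem_iff hc x

theorem valued_lt_exp_neg_one_of_mul {x y : v.adicCompletion K} (hx : Valued.v x < 1)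
    (hy : Valued.v y < 1) : Valued.v (x * y) < WithZero.exp (-1 : ℤ) := by
  rw [map_mul]
  have hx' := (lt_one_iff_le_exp_neg_one _).mp hx
  by_cases hy0 : Valued.v y = 0
  · rw [hy0, mul_zero]
    exact WithZero.exp_pos
  · calc Valued.v x * Valued.v y ≤ WithZero.exp (-1 : ℤ) * Valued.v y :=
          mul_le_mul_left hx' _
      _ < WithZero.exp (-1 : ℤ) * 1 := by
          exact (mul_lt_mul_iff_right₀ WithZero.exp_pos).mpr hy
      _ = WithZero.exp (-1 : ℤ) := mul_one _

end Unif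

/-! ## Anisotropy -/

section Aniso

variable {t n : v.adicCompletion K}

theorem IsGoodQ.lt_one_of_grad_lt_one (hq : IsGoodQ t n)
    {ξ : v.adicCompletion K × v.adicCompletion K}
    (h1 : Valued.v (2 * ξ.1 + t * ξ.2) < 1) (h2 : Valued.v (t * ξ.1 + 2 * n * ξ.2) < 1) :
    Valued.v ξ.1 < 1 ∧ Valued.v ξ.2 < 1 := by
  have hmul : ∀ {a x : v.adicCompletion K}, a ∈ intSet v → Valued.v x < 1 →
      Valued.v (a * x) < 1 := by
    intro a x ha hx
    rw [map_mul]
    calc Valued.v a * Valued.v x ≤ 1 * Valued.v x := mul_le_mul_left ((mem_intSet v).mp ha) _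
      _ = Valued.v x := one_mul _
      _ < 1 := hx
  have h2n : (2 * n : v.adicCompletion K) ∈ intSet v := mul_mem_intSet v two_mem_intSet hq.n_int
  constructor
  · have e : (t ^ 2 - 4 * n) * ξ.1
        = t * (t * ξ.1 + 2 * n * ξ.2) - 2 * n * (2 * ξ.1 + t * ξ.2) := by ring
    have h := Valuation.map_sub_lt _ (hmul hq.t_int h2) (hmul h2n h1)
    rw [← e, map_mul, hq.disc, one_mul] at h
    exact h
  · have e : (t ^ 2 - 4 * n) * ξ.2
        = t * (2 * ξ.1 + t * ξ.2) - 2 * (t * ξ.1 + 2 * n * ξ.2) := by ring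
    have h := Valuation.map_sub_lt _ (hmul hq.t_int h1) (hmul two_mem_intSet h2)
    rw [← e, map_mul, hq.disc, one_mul] at h
    exact h

/-- **Anisotropy** at an inert place: for `y ∈ 𝒪_v²`, `Q(y) ∈ 𝔪` iff `y ∈ 𝔪²`. -/
theorem IsInertL.qfL_lt_one_iff (hin : IsInertL v t n) (hq : IsGoodQ t n)
    {c : v.adicCompletion K} (hc : Valued.v c = WithZero.exp (-1 : ℤ))
    {y : v.adicCompletion K × v.adicCompletion K} (hy1 : y.1 ∈ intSet v) (hy2 : y.2 ∈ intSet v) :
    Valued.v (qfL t n y) < 1 ↔ (Valued.v y.1 < 1 ∧ Valued.v y.2 < 1) := by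
  have hmul : ∀ {a x : v.adicCompletion K}, a ∈ intSet v → Valued.v x < 1 →
      Valued.v (a * x) < 1 := by
    intro a x ha hx
    rw [map_mul]
    calc Valued.v a * Valued.v x ≤ 1 * Valued.v x := mul_le_mul_left ((mem_intSet v).mp ha) _
      _ = Valued.v x := one_mul _
      _ < 1 := hx
  constructor
  · intro hQ
    by_contra hcon
    have hQ' : Valued.v (qfL t n y) < WithZero.exp (-1 : ℤ) := by
      have h1 := (lt_one_iff_le_exp_neg_one _).mp hQ
      exact lt_of_le_of_ne h1 (hin y.1 y.2 hy1 hy2)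
    have hcc : Valued.v (c * c) < WithZero.exp (-1 : ℤ) :=
      valued_lt_exp_neg_one_of_mul (unif_valued_lt_one hc) (unif_valued_lt_one hc)
    obtain ⟨g1, g2⟩ := hq.grad_mem hy1 hy2
    have hgrad : Valued.v (2 * y.1 + t * y.2) = 1 ∨ Valued.v (t * y.1 + 2 * n * y.2) = 1 := by
      by_contra hno
      rw [not_or] at hno
      exact hcon (hq.lt_one_of_grad_lt_one
        (lt_of_le_of_ne ((mem_intSet v).mp g1) hno.1)
        (lt_of_le_of_ne ((mem_intSet v).mp g2) hno.2))
    have hcint : c ∈ intSet v := (mem_intSet v).mpr (unif_valued_lt_one hc).le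
    rcases hgrad with hg | hg
    · refine hin (y.1 + c) y.2 (add_mem_intSet v hy1 hcint) hy2 ?_
      have e : (y.1 + c) ^ 2 + t * (y.1 + c) * y.2 + n * y.2 ^ 2
          = c * (2 * y.1 + t * y.2) + (qfL t n y + c * c) := by
        unfold qfL
        ring
      rw [e]
      have h1 : Valued.v (c * (2 * y.1 + t * y.2)) = WithZero.exp (-1 : ℤ) := by
        rw [map_mul, hg, mul_one, hc]
      have h2 : Valued.v (qfL t n y + c * c) < Valued.v (c * (2 * y.1 + t * y.2)) := by
        rw [h1]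
        exact Valuation.map_add_lt _ hQ' hcc
      rw [Valuation.map_add_eq_of_lt_left _ h2, h1]
    · refine hin y.1 (y.2 + c) hy1 (add_mem_intSet v hy2 hcint) ?_
      have e : y.1 ^ 2 + t * y.1 * (y.2 + c) + n * (y.2 + c) ^ 2
          = c * (t * y.1 + 2 * n * y.2) + (qfL t n y + n * (c * c)) := by
        unfold qfL
        ring
      rw [e]
      have h1 : Valued.v (c * (t * y.1 + 2 * n * y.2)) = WithZero.exp (-1 : ℤ) := by
        rw [map_mul, hg, mul_one, hc]
      have hncc : Valued.v (n * (c * c)) < WithZero.exp (-1 : ℤ) := by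
        rw [map_mul]
        calc Valued.v n * Valued.v (c * c) ≤ 1 * Valued.v (c * c) :=
              mul_le_mul_left ((mem_intSet v).mp hq.n_int) _
          _ = Valued.v (c * c) := one_mul _
          _ < WithZero.exp (-1 : ℤ) := hcc
      have h2 : Valued.v (qfL t n y + n * (c * c))
          < Valued.v (c * (t * y.1 + 2 * n * y.2)) := by
        rw [h1]
        exact Valuation.map_add_lt _ hQ' hncc
      rw [Valuation.map_add_eq_of_lt_left _ h2, h1]
  · rintro ⟨h1, h2⟩
    unfold qfL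
    refine Valuation.map_add_lt _ (Valuation.map_add_lt _ ?_ ?_) ?_
    · rw [pow_two]
      exact hmul hy1 h1
    · exact hmul (mul_mem_intSet v hq.t_int hy1) h2
    · rw [pow_two]
      exact hmul hq.n_int (hmul hy2 h2)

end Aniso

/-! ## Matrix identities -/

section Ident2

variable {R : Type} [Field R]

theorem weyl_diag_eq (a : R) :
    (!![0, 1; -1, 0] : Matrix (Fin 2) (Fin 2) R) * !![a, 0; 0, a⁻¹]
      = !![a⁻¹, 0; 0, a⁻¹⁻¹] * !![0, 1; -1, 0] := by
  ext i j
  fin_cases i <;> fin_cases j <;> simp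

theorem weyl_unip_weyl_eq (a : R) (ha : a ≠ 0) :
    (!![0, 1; -1, 0] : Matrix (Fin 2) (Fin 2) R) * (!![1, a; 0, 1] * !![0, 1; -1, 0])
      = !![-a⁻¹, 0; 0, (-a⁻¹)⁻¹] * (!![1, -a; 0, 1]
          * (!![0, 1; -1, 0] * !![1, -a⁻¹; 0, 1])) := by
  ext i j
  fin_cases i <;> fin_cases j <;> simp [ha]

end Ident2

/-! ## The Weil representation at `ξ = 0` -/

section Weil

variable {t n : v.adicCompletion K} {ψ : v.adicCompletion K → ℂ}
  {μ : Measure (v.adicCompletion K)} {η : v.adicCompletion K → ℂ}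
  {F : Matrix (Fin 2) (Fin 2) (v.adicCompletion K) →
      Matrix (Fin 2) (Fin 2) (v.adicCompletion K) →
      v.adicCompletion K × v.adicCompletion K → ℂ}

theorem bfL_zero_left (t n : v.adicCompletion K) (y : v.adicCompletion K × v.adicCompletion K) :
    bfL t n 0 y = 0 := by
  rw [bfL_eq]
  simp

theorem qfL_zero (t n : v.adicCompletion K) : qfL t n 0 = 0 := by
  unfold qfL
  simp

theorem IsStdFam.eta_one (h : IsStdFam t n ψ μ 1 η F) : η 1 = 1 := h.eta 1 (map_one _)

theorem IsStdFam.eta_ne_zero (h : IsStdFam t n ψ μ 1 η F) {a : v.adicCompletion K}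
    (ha : a ≠ 0) : η a ≠ 0 := by
  rcases h.ax.eta_sq a ha with h1 | h1 <;> rw [h1] <;> norm_num

theorem IsStdFam.eta_inv (h : IsStdFam t n ψ μ 1 η F) {a : v.adicCompletion K} (ha : a ≠ 0) :
    η a⁻¹ = η a := by
  have h1 : η a * η a⁻¹ = 1 := by
    rw [← h.ax.eta_mul a a⁻¹ ha (inv_ne_zero ha), mul_inv_cancel₀ ha, h.eta_one]
  rcases h.ax.eta_sq a ha with h2 | h2
  · rw [h2, one_mul] at h1
    rw [h1, h2]
  · rw [h2] at h1
    rw [h2]
    linear_combination -h1

/-- The value at `w`. -/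
theorem IsStdFam.weyl_mem (h : IsStdFam t n ψ μ 1 η F) :
    (!![0, 1; -1, 0] : Matrix (Fin 2) (Fin 2) (v.adicCompletion K)) ∈ fixSet F 1 := by
  have := h.fix_weyl' h.one_mem
  rw [Matrix.mul_one] at this
  exact this

/-- The value at `n(x)`, `x ∈ 𝒪_v`. -/
theorem IsStdFam.unip_mem (h : IsStdFam t n ψ μ 1 η F) {x : v.adicCompletion K}
    (hx : x ∈ intSet v) :
    (!![1, x; 0, 1] : Matrix (Fin 2) (Fin 2) (v.adicCompletion K)) ∈ fixSet F 1 := by
  have := h.fix_unip h.one_mem hx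
  rw [Matrix.mul_one] at this
  exact this

/-- The formula for `t(a)`. -/
theorem IsStdFam.diag_apply (h : IsStdFam t n ψ μ 1 η F) {a : v.adicCompletion K} (ha : a ≠ 0)
    (y : v.adicCompletion K × v.adicCompletion K) :
    F !![a, 0; 0, a⁻¹] 1 y = η a * ((‖a‖ : ℝ) : ℂ) * stdFn v (a • y) := by
  have := h.ax.diag a ha 1 1 y (admL_of_det_one t n Matrix.det_one)
  rw [Matrix.mul_one, h.std] at this
  exact this

/-- **The module**: `∫ stdFn(a y) dy = ‖a‖⁻²`. -/
theorem IsStdFam.module (h : IsStdFam t n ψ μ 1 η F) {a : v.adicCompletion K} (ha : a ≠ 0) :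
    intL μ (fun y => stdFn v (a • y)) = (((‖a‖ ^ 2)⁻¹ : ℝ) : ℂ) := by
  have hL := h.ax.weyl !![a, 0; 0, a⁻¹] 1 0 (admL_of_det_one t n (det_diagM a ha))
  have e1 : (fun y => F !![a, 0; 0, a⁻¹] 1 y * ψ (bfL t n 0 y))
      = fun y => (η a * ((‖a‖ : ℝ) : ℂ)) * stdFn v (a • y) := by
    funext y
    rw [h.diag_apply ha, bfL_zero_left, h.char.zero, mul_one]
  have e2 : intL μ (fun y => (η a * ((‖a‖ : ℝ) : ℂ)) * stdFn v (a • y))
      = (η a * ((‖a‖ : ℝ) : ℂ)) * intL μ (fun y => stdFn v (a • y)) := by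
    unfold intL
    exact integral_const_mul _ _
  rw [e1, e2, one_mul, weyl_diag_eq a] at hL
  have hR := h.ax.diag a⁻¹ (inv_ne_zero ha) _ 1 0 (admL_of_det_one t n h.weyl_mem.1)
  rw [h.weyl_mem.2, smul_zero, stdFn_zero, one_mul, mul_one, h.eta_inv ha, norm_inv] at hR
  rw [hR] at hL
  have hη := h.eta_ne_zero ha
  have hn : ((‖a‖ : ℝ) : ℂ) ≠ 0 := by
    exact_mod_cast (norm_pos_iff.mpr ha).ne'
  have h4 : η a * (intL μ (fun y => stdFn v (a • y)) * ((‖a‖ : ℝ) : ℂ) ^ 2) = η a * 1 := by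
    have h3 : η a * ((‖a‖ : ℝ) : ℂ) * intL μ (fun y => stdFn v (a • y)) * ((‖a‖ : ℝ) : ℂ)
        = η a := by
      rw [← hL]
      push_cast
      field_simp
    rw [mul_one]
    linear_combination h3
  have h5 := mul_left_cancel₀ hη h4
  push_cast
  field_simp
  exact h5

/-- **The Gauss integral** at `u / c`, `u` a unit, `c` a uniformiser. -/
theorem IsStdFam.gauss_unit (h : IsStdFam t n ψ μ 1 η F) {c u : v.adicCompletion K}
    (hc : Valued.v c = WithZero.exp (-1 : ℤ)) (hu : Valued.v u = 1) :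
    intL μ (fun y => stdFn v y * ψ ((u / c) * qfL t n y)) = η c * ((‖c‖ : ℝ) : ℂ) := by
  have hc0 := unif_ne_zero hc
  have hu0 := ne_zero_of_valued_eq_one hu
  have ha : u / c ≠ 0 := div_ne_zero hu0 hc0
  have hainv : -(u / c)⁻¹ = c * (-u⁻¹) := by
    field_simp
  have hui : Valued.v (-u⁻¹) = 1 := by
    rw [Valuation.map_neg]
    exact valued_inv_eq_one hu
  have hmem : -(u / c)⁻¹ ∈ intSet v := by
    rw [hainv]
    exact mul_mem_intSet v ((mem_intSet v).mpr (unif_valued_lt_one hc).le)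
      (mem_intSet_of_valued_eq_one hui)
  have hdet1 : ((!![1, u / c; 0, 1] : Matrix (Fin 2) (Fin 2) (v.adicCompletion K))
      * !![0, 1; -1, 0]).det = 1 := by
    rw [Matrix.det_mul, det_unipM, det_weylM, one_mul]
  have hL := h.ax.weyl _ 1 0 (admL_of_det_one t n hdet1)
  have e1 : (fun y => F (!![1, u / c; 0, 1] * !![0, 1; -1, 0]) 1 y * ψ (bfL t n 0 y))
      = fun y => stdFn v y * ψ ((u / c) * qfL t n y) := by
    funext y
    rw [h.ax.unip (u / c) _ 1 y (admL_of_det_one t n h.weyl_mem.1), h.weyl_mem.2,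
      bfL_zero_left, h.char.zero, mul_one, one_mul, mul_comm]
  rw [e1, one_mul, weyl_unip_weyl_eq _ ha] at hL
  have hfix := h.fix_weyl' (h.unip_mem hmem)
  have hdet2 : ((!![1, -(u / c); 0, 1] : Matrix (Fin 2) (Fin 2) (v.adicCompletion K))
      * (!![0, 1; -1, 0] * !![1, -(u / c)⁻¹; 0, 1])).det = 1 := by
    rw [Matrix.det_mul, det_unipM, hfix.1, one_mul]
  have hR1 := h.ax.diag (-(u / c)⁻¹) (neg_ne_zero.mpr (inv_ne_zero ha)) _ 1 0
    (admL_of_det_one t n hdet2)
  have hR2 := h.ax.unip (-(u / c)) _ 1 0 (admL_of_det_one t n hfix.1)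
  rw [smul_zero, hR2, hfix.2, qfL_zero, mul_zero, h.char.zero, stdFn_zero, one_mul, mul_one,
    mul_one] at hR1
  rw [hR1] at hL
  rw [← hL, hainv, h.ax.eta_mul c (-u⁻¹) hc0 (ne_zero_of_valued_eq_one hui), h.eta _ hui,
    mul_one, norm_mul, norm_eq_one_of_valued hui, mul_one]

/-- The Gauss integral at an integer. -/
theorem IsStdFam.gauss_int (h : IsStdFam t n ψ μ 1 η F) {a : v.adicCompletion K}
    (ha : a ∈ intSet v) :
    intL μ (fun y => stdFn v y * ψ (a * qfL t n y)) = 1 := by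
  have e : (fun y => stdFn v y * ψ (a * qfL t n y))
      = fun y => stdFn v y * ψ (bfL t n 0 y) := by
    funext y
    rw [bfL_zero_left, h.char.zero]
    by_cases hy : y.1 ∈ intSet v ∧ y.2 ∈ intSet v
    · rw [h.char.int _ (mul_mem_intSet v ha (h.good.qfL_mem hy.1 hy.2))]
    · rw [stdFn_of_notMem hy, zero_mul, zero_mul]
  rw [e, ft_stdFn h.ax.haar h.meas h.char h.good 0, stdFn_zero]

/-! ## The maximal ideal -/

/-- The maximal ideal of `𝒪_v`, as a set. -/
def maxSet (v : HeightOneSpectrum (𝓞 K)) : Set (v.adicCompletion K) :=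
  {z : v.adicCompletion K | Valued.v z < 1}

theorem isOpen_maxSet : IsOpen (maxSet v) := Fermat.Agent.LT.H11.LC.isOpen_valued_lt_one_h11 K v

theorem measurableSet_maxSet : MeasurableSet (maxSet v) := isOpen_maxSet.measurableSet

theorem maxSet_subset : maxSet v ⊆ intSet v := fun _ hz => (mem_intSet v).mpr (le_of_lt hz)

theorem stdFn_inv_unif_smul {c : v.adicCompletion K} (hc : Valued.v c = WithZero.exp (-1 : ℤ))
    (y : v.adicCompletion K × v.adicCompletion K) :
    stdFn v (c⁻¹ • y)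
      = (maxSet v).indicator (fun _ => (1 : ℂ)) y.1 * (maxSet v).indicator (fun _ => (1 : ℂ)) y.2 := by
  have e1 : (c⁻¹ • y).1 = c⁻¹ * y.1 := rfl
  have e2 : (c⁻¹ • y).2 = c⁻¹ * y.2 := rfl
  by_cases h1 : y.1 ∈ maxSet v
  · by_cases h2 : y.2 ∈ maxSet v
    · rw [Set.indicator_of_mem h1, Set.indicator_of_mem h2, mul_one]
      refine stdFn_of_mem ?_ ?_
      · rw [e1]; exact (inv_unif_mul_mem_iff hc _).mpr h1
      · rw [e2]; exact (inv_unif_mul_mem_iff hc _).mpr h2
    · rw [Set.indicator_of_notMem h2, mul_zero]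
      refine stdFn_of_notMem ?_
      rintro ⟨-, h⟩
      rw [e2] at h
      exact h2 ((inv_unif_mul_mem_iff hc _).mp h)
  · rw [Set.indicator_of_notMem h1, zero_mul]
    refine stdFn_of_notMem ?_
    rintro ⟨h, -⟩
    rw [e1] at h
    exact h1 ((inv_unif_mul_mem_iff hc _).mp h)

theorem integral_indicator_maxSet (μ : Measure (v.adicCompletion K)) :
    ∫ y, (maxSet v).indicator (fun _ => (1 : ℂ)) y ∂μ = (((μ (maxSet v)).toReal : ℝ) : ℂ) := by
  rw [integral_indicator measurableSet_maxSet, setIntegral_const]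
  simp [Measure.real]

/-- **The measure of the maximal ideal** is `‖c‖`. -/
theorem IsStdFam.measure_maxSet (h : IsStdFam t n ψ μ 1 η F) {c : v.adicCompletion K}
    (hc : Valued.v c = WithZero.exp (-1 : ℤ)) : (μ (maxSet v)).toReal = ‖c‖ := by
  have := haar_sigmaFinite h.ax.haar
  have hc0 := unif_ne_zero hc
  have h1 := h.module (inv_ne_zero hc0)
  have e : (fun y : v.adicCompletion K × v.adicCompletion K => stdFn v (c⁻¹ • y))
      = fun y => (maxSet v).indicator (fun _ => (1 : ℂ)) y.1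
          * (maxSet v).indicator (fun _ => (1 : ℂ)) y.2 := by
    funext y
    exact stdFn_inv_unif_smul hc y
  have h2 : intL μ (fun y => stdFn v (c⁻¹ • y))
      = (((μ (maxSet v)).toReal : ℝ) : ℂ) * (((μ (maxSet v)).toReal : ℝ) : ℂ) := by
    rw [e]
    unfold intL
    rw [integral_prod_mul, integral_indicator_maxSet]
  rw [h2, norm_inv, inv_pow, inv_inv] at h1
  have h3 : (μ (maxSet v)).toReal * (μ (maxSet v)).toReal = ‖c‖ ^ 2 := by
    exact_mod_cast h1
  have h4 : (μ (maxSet v)).toReal ^ 2 = ‖c‖ ^ 2 := by rw [pow_two]; exact h3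
  exact (pow_left_inj₀ ENNReal.toReal_nonneg (norm_nonneg c) two_ne_zero).mp h4

/-! ## Fubini -/

/-- The inner integral over `u ∈ 𝒪_v`, at an inert place. -/
theorem IsStdFam.inner_int (h : IsStdFam t n ψ μ 1 η F) (hin : IsInertL v t n)
    {c : v.adicCompletion K} (hc : Valued.v c = WithZero.exp (-1 : ℤ))
    {y : v.adicCompletion K × v.adicCompletion K} (hy1 : y.1 ∈ intSet v) (hy2 : y.2 ∈ intSet v) :
    ∫ u in intSet v, ψ ((u / c) * qfL t n y) ∂μ = stdFn v (c⁻¹ • y) := by
  have e : (fun u : v.adicCompletion K => ψ ((u / c) * qfL t n y))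
      = fun u => ψ ((qfL t n y / c) * u) := by
    funext u
    congr 1
    ring
  rw [e]
  have e1 : (c⁻¹ • y).1 = c⁻¹ * y.1 := rfl
  have e2 : (c⁻¹ • y).2 = c⁻¹ * y.2 := rfl
  by_cases hQ : qfL t n y / c ∈ intSet v
  · rw [setIntegral_char_of_mem h.char hQ, h.meas]
    have := (hin.qfL_lt_one_iff h.good hc hy1 hy2).mp ((div_unif_mem_iff hc _).mp hQ)
    rw [stdFn_of_mem]
    · simp
    · rw [e1]; exact (inv_unif_mul_mem_iff hc _).mpr this.1
    · rw [e2]; exact (inv_unif_mul_mem_iff hc _).mpr this.2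
  · rw [setIntegral_char_of_notMem h.ax.haar h.char hQ]
    symm
    refine stdFn_of_notMem ?_
    rintro ⟨h1, h2⟩
    rw [e1] at h1
    rw [e2] at h2
    apply hQ
    rw [div_unif_mem_iff hc]
    exact (hin.qfL_lt_one_iff h.good hc hy1 hy2).mpr
      ⟨(inv_unif_mul_mem_iff hc _).mp h1, (inv_unif_mul_mem_iff hc _).mp h2⟩

theorem stdFn_mul_stdFn_inv_unif {c : v.adicCompletion K}
    (hc : Valued.v c = WithZero.exp (-1 : ℤ)) (y : v.adicCompletion K × v.adicCompletion K) :
    stdFn v y * stdFn v (c⁻¹ • y) = stdFn v (c⁻¹ • y) := by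
  by_cases hy : y.1 ∈ intSet v ∧ y.2 ∈ intSet v
  · rw [stdFn_of_mem hy.1 hy.2, one_mul]
  · rw [stdFn_of_notMem hy, zero_mul]
    symm
    refine stdFn_of_notMem ?_
    rintro ⟨h1, h2⟩
    have e1 : (c⁻¹ • y).1 = c⁻¹ * y.1 := rfl
    have e2 : (c⁻¹ • y).2 = c⁻¹ * y.2 := rfl
    rw [e1] at h1
    rw [e2] at h2
    exact hy ⟨maxSet_subset ((inv_unif_mul_mem_iff hc _).mp h1),
      maxSet_subset ((inv_unif_mul_mem_iff hc _).mp h2)⟩

/-- **At a good inert place `η(ϖ) = -1`.** -/
theorem IsStdFam.eta_unif (h : IsStdFam t n ψ μ 1 η F) (hin : IsInertL v t n)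
    {c : v.adicCompletion K} (hc : Valued.v c = WithZero.exp (-1 : ℤ)) : η c = -1 := by
  have hμ : IsHaarL μ := h.ax.haar
  have hsf := haar_sigmaFinite hμ
  have hc0 := unif_ne_zero hc
  have hfin : IsFiniteMeasure (μ.restrict (intSet v)) :=
    ⟨by rw [Measure.restrict_apply_univ]; exact haar_int_lt_top hμ⟩
  have hcont : Continuous (Function.uncurry
      (fun (u : v.adicCompletion K) (y : v.adicCompletion K × v.adicCompletion K) =>
        ψ ((u / c) * qfL t n y))) := by
    refine h.char.cont.comp ?_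
    unfold qfL
    fun_prop
  have hint : Integrable (Function.uncurry
      (fun (u : v.adicCompletion K) (y : v.adicCompletion K × v.adicCompletion K) =>
        ψ ((u / c) * qfL t n y)))
      ((μ.restrict (intSet v)).prod ((μ.restrict (intSet v)).prod (μ.restrict (intSet v)))) := by
    refine Integrable.of_bound hcont.aestronglyMeasurable 1
      (Filter.Eventually.of_forall fun x => ?_)
    simp only [Function.uncurry]
    rw [h.char.norm]
  have hswap := integral_integral_swap hint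
  -- the left hand side
  have hL : ∫ u in intSet v, (∫ y, ψ ((u / c) * qfL t n y)
      ∂((μ.restrict (intSet v)).prod (μ.restrict (intSet v)))) ∂μ
      = η c * ((‖c‖ : ℝ) : ℂ) + (1 - η c * ((‖c‖ : ℝ) : ℂ)) * ((‖c‖ : ℝ) : ℂ) := by
    have e : ∀ u ∈ intSet v, (∫ y, ψ ((u / c) * qfL t n y)
        ∂((μ.restrict (intSet v)).prod (μ.restrict (intSet v))))
        = η c * ((‖c‖ : ℝ) : ℂ)
          + (1 - η c * ((‖c‖ : ℝ) : ℂ)) * (maxSet v).indicator (fun _ => (1 : ℂ)) u := by
      intro u hu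
      rw [← intL_std_mul hμ]
      by_cases hu1 : u ∈ maxSet v
      · rw [Set.indicator_of_mem hu1, h.gauss_int ((div_unif_mem_iff hc u).mpr hu1)]
        ring
      · rw [Set.indicator_of_notMem hu1,
          h.gauss_unit hc (le_antisymm ((mem_intSet v).mp hu) (not_lt.mp hu1))]
        ring
    rw [setIntegral_congr_fun (measurableSet_intSet v) e]
    have hi1 : Integrable (fun _ : v.adicCompletion K => η c * ((‖c‖ : ℝ) : ℂ))
        (μ.restrict (intSet v)) := integrable_const _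
    have hi2 : Integrable (fun u : v.adicCompletion K => (1 - η c * ((‖c‖ : ℝ) : ℂ))
        * (maxSet v).indicator (fun _ => (1 : ℂ)) u) (μ.restrict (intSet v)) :=
      ((integrable_const (1 : ℂ)).indicator measurableSet_maxSet).const_mul _
    rw [integral_add hi1 hi2, integral_const, integral_const_mul,
      setIntegral_indicator measurableSet_maxSet, Set.inter_eq_right.mpr maxSet_subset,
      setIntegral_const]
    simp only [Measure.real, Measure.restrict_apply_univ, h.meas, h.measure_maxSet hc]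
    rw [ENNReal.toReal_one, one_smul, Complex.real_smul, mul_one]
  -- the right hand side
  have hR : ∫ y, (∫ u in intSet v, ψ ((u / c) * qfL t n y) ∂μ)
      ∂((μ.restrict (intSet v)).prod (μ.restrict (intSet v)))
      = (((‖c‖ ^ 2 : ℝ)) : ℂ) := by
    rw [Measure.prod_restrict]
    have e : ∀ y ∈ intSet v ×ˢ intSet v, (∫ u in intSet v, ψ ((u / c) * qfL t n y) ∂μ)
        = stdFn v (c⁻¹ • y) := fun y hy => h.inner_int hin hc hy.1 hy.2
    rw [setIntegral_congr_fun ((measurableSet_intSet v).prod (measurableSet_intSet v)) e]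
    rw [← Measure.prod_restrict, ← intL_std_mul hμ]
    have e2 : (fun y => stdFn v y * stdFn v (c⁻¹ • y)) = fun y => stdFn v (c⁻¹ • y) := by
      funext y
      exact stdFn_mul_stdFn_inv_unif hc y
    rw [e2, h.module (inv_ne_zero hc0), norm_inv, inv_pow, inv_inv]
  rw [hL, hR] at hswap
  have hn0 : (0 : ℝ) < ‖c‖ := norm_pos_iff.mpr hc0
  have hn1 : ‖c‖ < 1 := Valued.toNormedField.norm_lt_one_iff.mpr (unif_valued_lt_one hc)
  have hne : (((‖c‖ * (1 - ‖c‖) : ℝ)) : ℂ) ≠ 0 := by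
    have : ‖c‖ * (1 - ‖c‖) ≠ 0 := mul_ne_zero hn0.ne' (sub_pos.mpr hn1).ne'
    exact_mod_cast this
  have hfinal : (η c + 1) * (((‖c‖ * (1 - ‖c‖) : ℝ)) : ℂ) = 0 := by
    push_cast
    push_cast at hswap
    linear_combination hswap
  rcases mul_eq_zero.mp hfinal with h1 | h1
  · exact eq_neg_of_add_eq_zero_left h1
  · exact absurd h1 hne

end Weil

/-- **The inert sub-leaf.** -/
theorem inertEtaC999 : InertEtaC := by
  intro K _ _ v t n ψ μ η F hq hψ hμ1 hax hstd hη hin c hc
  exact IsStdFam.eta_unif ⟨hax, hstd, hμ1, hψ, hq, hη⟩ hin hc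

end Fermat.Agent.LT.A2.H999
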