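import Fermat.Agent.LT.A2.H999.LocGoodAsm
import Fermat.Agent.LT.A2.H999.LGEta

/-!
# Row LT, tower A2, leaf A2.03.1.1.08 `WX467.LocGoodOfRepC` (helper999): THE LEAF

OFF-MAIN.  `locGoodOfRepC999 : WX467.LocGoodOfRepC`, i.e. `LocRepC → LocUniqC → LocGoodC`
(frozen in `Fermat/Agent/LT/A2/H467/DataSpec.lean`).

Files: `LGLocal` (dictionary local/adelic), `LGMeasure` (integrals, `ft_stdFn`, rescaling),
`LGGen` (`γ = 1`, `SL₂(𝒪_v)`, right invariance), `LGFin` (certificates `FinAt`, `GoodAt`),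
`EtaSpec` + `LGEta` (`η_v(ϖ) = -1` at the inert places), `LocGoodAsm` (assembly).
-/

set_option autoImplicit false

namespace Fermat.Agent.LT.A2.H999

open Fermat.Agent.LT.A2

/-- **A2.03.1.1.08 LOC-GOOD from the local Weil representation.** -/
theorem locGoodOfRepC999 : WX467.LocGoodOfRepC :=
  locGoodOfRepC_of_inertEta999 inertEtaC999

end Fermat.Agent.LT.A2.H999
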