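import Fermat.Agent.LT.A2.H999.LGFin

/-!
# Row LT, tower A2, leaf A2.03.1.1.08 `WX467.LocGoodOfRepC` (helper999), part 5: assembly

OFF-MAIN.  `locGoodOfRepC_of_inertEta999 : InertEtaC → WX467.LocGoodOfRepC`.

The components at a good place `v`: `ψ_v` = the local component of `ψ` (`psiLoc`), the family
`F` of the local Weil representation (`LocRepC`) with initial vector `stdFn v`, its measure
rescaled to `μ_v(𝒪_v) = 1` (and `γ_v` accordingly), `Tlev v = T(𝒪_v)`.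
-/

set_option autoImplicit false

open IsDedekindDomain NumberField AutomorphicForm MeasureTheory
open scoped MatrixGroups Topology RestrictedProduct

noncomputable section

namespace Fermat.Agent.LT.A2.H999

open Fermat.Agent.LT.H130 Fermat.Agent.LT.H556 Fermat.Agent.LT.A2 Fermat.Agent.LT.A2.WX467
open Fermat.Agent.LT.H129

attribute [local instance] borelMS999 borelSp999 secCount999 locCpt999

theorem isGoodQ_of_goodArith {K : Type} [Field K] [NumberField K] {t n : K}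
    {χT : A0.G K → ℂ} {ψ : A0.Adl K → ℂ} {v : HeightOneSpectrum (𝓞 K)}
    (hg : GoodArith t n χT ψ v) :
    IsGoodQ (algebraMap K (v.adicCompletion K) t) (algebraMap K (v.adicCompletion K) n) := by
  refine ⟨(mem_intSet v).mpr hg.good_int.1, (mem_intSet v).mpr hg.good_int.2.1, ?_⟩
  have h := hg.good_int.2.2
  rw [map_sub, map_pow, map_mul, map_ofNat] at h
  exact h

/-- **A2.03.1.1.08**, modulo the inert sub-leaf. -/
theorem locGoodOfRepC_of_inertEta999 (hinert : InertEtaC) : WX467.LocGoodOfRepC := by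
  intro hrep huniq K _ _ t n χT ψ v _hT1 _hχ hψ hg
  have hq := isGoodQ_of_goodArith hg
  have hψv : IsStdChar v (psiLoc v ψ) := isStdChar_psiLoc v hψ hg.good_psi
  have hdisc : t ^ 2 - 4 * n ≠ 0 := by
    intro h0
    have h := hg.good_int.2.2
    rw [h0, map_zero, map_zero] at h
    exact zero_ne_one h
  obtain ⟨μ₀, γ₀, ηv, hF⟩ := hrep K v t n (psiLoc v ψ) hdisc hψv.isCharL
  obtain ⟨F, hax, hsb, hF11⟩ := hF (stdFn v) (isLocallyConstant_stdFn v)
    (hasCompactSupport_stdFn v)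
  have hμ₀ : IsHaarL μ₀ := hax.haar
  have hs0 : (μ₀ (intSet v))⁻¹ ≠ 0 := ENNReal.inv_ne_zero.mpr (haar_int_lt_top hμ₀).ne
  have hs : (μ₀ (intSet v))⁻¹ ≠ ⊤ := ENNReal.inv_ne_top.mpr (haar_int_pos hμ₀).ne'
  have haxv := locAx_rescale hax hs0 hs
  have hμ1 : ((μ₀ (intSet v))⁻¹ • μ₀) (intSet v) = 1 := by
    show (μ₀ (intSet v))⁻¹ * μ₀ (intSet v) = 1
    exact ENNReal.inv_mul_cancel (haar_int_pos hμ₀).ne' (haar_int_lt_top hμ₀).ne
  have hgt : GoodTor t n χT v := ⟨hg.good_int, hg.good_char, hg.good_norm⟩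
  have heta : ∀ a : v.adicCompletion K, Valued.v a = 1 → ηv a = 1 := by
    intro a ha
    obtain ⟨κ, hκ, hdet⟩ := exists_torInt_det v hgt ha
    have := hax.eta_norm κ hκ.1 hκ.2.1
    rw [hdet] at this
    exact this
  have hfam : IsStdFam (algebraMap K (v.adicCompletion K) t)
      (algebraMap K (v.adicCompletion K) n) (psiLoc v ψ) ((μ₀ (intSet v))⁻¹ • μ₀)
      (γ₀ * ((((μ₀ (intSet v))⁻¹.toReal ^ 2 : ℝ) : ℂ))⁻¹) ηv F :=
    ⟨haxv, hF11, hμ1, hψv, hq, heta⟩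
  refine ⟨psiLoc v ψ, (μ₀ (intSet v))⁻¹ • μ₀,
    γ₀ * ((((μ₀ (intSet v))⁻¹.toReal ^ 2 : ℝ) : ℂ))⁻¹, ηv, F, torInt v t n, ?_⟩
  intro L' hM hMf _hlev
  obtain ⟨ht, hn, hχ', hψ'⟩ := hM
  obtain ⟨h1, h2, h3, h4, h5, h6⟩ := hMf
  have hfam' : IsStdFam (L'.tfin v) (L'.nfin v) (L'.ψfin v) (L'.μfin v) (L'.γfin v)
      (L'.ηfin v) (L'.Ffin v) := by
    rw [h1, h2, h3, h4, h5]
    unfold WData.tfin WData.nfin
    rw [ht, hn]
    exact hfam
  have hsb' : ∀ g m : Matrix (Fin 2) (Fin 2) (v.adicCompletion K),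
      AdmL (L'.tfin v) (L'.nfin v) g m →
      IsLocallyConstant (L'.Ffin v g m) ∧ HasCompactSupport (L'.Ffin v g m) := by
    rw [h5]
    unfold WData.tfin WData.nfin
    rw [ht, hn]
    exact hsb
  have hpsi' : ∀ x : A0.Adl K, WL.AdlAtFin v x → L'.ψ x = L'.ψfin v (x.2 v) := by
    intro x hx
    rw [hψ', h1]
    exact psiLoc_eq v ψ hx
  have hT' : L'.Tlev v = torIntL (L'.tfin v) (L'.nfin v) := by
    rw [h6]
    unfold WData.tfin WData.nfin
    rw [ht, hn]
    rfl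
  have hga' : GoodArith L'.t L'.n L'.χT L'.ψ v := by
    rw [ht, hn, hχ', hψ']
    exact hg
  refine ⟨finAt_of_stdFam huniq hfam' hsb' hpsi' hT' hga', fun hη => ?_⟩
  refine goodAt_of_stdFam hinert hfam' hT' hga' ?_
  intro a ha
  rw [hη a ha, h4]

end Fermat.Agent.LT.A2.H999
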