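import Fermat.Agent.LT.A2.H999.LGMeasure

/-!
# Row LT, tower A2, leaf A2.03.1.1.08 `WX467.LocGoodOfRepC` (helper999): THE CUT of the inert
# sub-leaf `InertEtaC`

OFF-MAIN.  One frozen Prop, no holes, nothing assumed.

`InertEtaC`: at a good INERT place the quadratic character of a local Weil family with initial
vector `stdFn v` (`γ = 1`, `μ(𝒪_v) = 1`, `η = 1` on the units) takes the value `-1` at the
uniformisers.

Proof (all from the axioms `LocAx`; `R(g) := F g 1`, `Φ₀ := stdFn v`; `ft_stdFn` in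
`LGMeasure.lean` gives `R(w) = Φ₀`):

1. MODULE.  `w t(a) = t(a⁻¹) w` at `ξ = 0`:
   `η(a) |a| (μ(a⁻¹ 𝒪_v))² = η(a⁻¹) |a|⁻¹`, so `μ(b 𝒪_v) = ‖b‖`.
2. GAUSS.  `w n(a) w = t(-a⁻¹) n(-a) w n(-a⁻¹)` at `ξ = 0`, `a = u / c`, `u` a unit, `c` a
   uniformiser:  `∫_{𝒪_v²} ψ(u Q(y) / c) dy = η(c) ‖c‖`.
3. FUBINI over `u ∈ 𝒪_v`:
   `(1 - ‖c‖) η(c) ‖c‖ + ‖c‖ = (μ × μ) {y ∈ 𝒪_v² | Q(y) ∈ c 𝒪_v}`.
4. INERT: `{y ∈ 𝒪_v² | Q(y) ∈ c 𝒪_v} = (c 𝒪_v)²` (if `y` is primitive and `Q(y) ∈ c 𝒪_v`, then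
   `y' = y + c z`, `z = (1, 0)` or `(0, 1)` with `B(y, z)` a unit, has `v(Q(y')) = exp (-1)`),
   of measure `‖c‖²`.  Hence `η(c) = -1`.
-/

set_option autoImplicit false

open IsDedekindDomain NumberField AutomorphicForm MeasureTheory
open scoped MatrixGroups Topology RestrictedProduct

noncomputable section

namespace Fermat.Agent.LT.A2.H999

open Fermat.Agent.LT.H130 Fermat.Agent.LT.H556 Fermat.Agent.LT.A2 Fermat.Agent.LT.A2.WX467
open Fermat.Agent.LT.H129

/-- The place is INERT for the form `x² + t x y + n y²`, in local terms: the form does not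
represent a uniformiser on `𝒪_v²`. -/
def IsInertL {K : Type} [Field K] [NumberField K] (v : HeightOneSpectrum (𝓞 K))
    (t n : v.adicCompletion K) : Prop :=
  ∀ a b : v.adicCompletion K, a ∈ v.adicCompletionIntegers K → b ∈ v.adicCompletionIntegers K →
    Valued.v (a ^ 2 + t * a * b + n * b ^ 2) ≠ WithZero.exp (-1 : ℤ)

/-- **Sub-leaf INERT-ETA.**  At a good inert place, `η_v(ϖ) = -1`. -/
def InertEtaC : Prop :=
  ∀ (K : Type) [Field K] [NumberField K] (v : HeightOneSpectrum (𝓞 K))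
    (t n : v.adicCompletion K) (ψ : v.adicCompletion K → ℂ)
    (μ : @Measure (v.adicCompletion K) (borel (v.adicCompletion K)))
    (η : v.adicCompletion K → ℂ)
    (F : Matrix (Fin 2) (Fin 2) (v.adicCompletion K) →
      Matrix (Fin 2) (Fin 2) (v.adicCompletion K) →
      v.adicCompletion K × v.adicCompletion K → ℂ),
    IsGoodQ t n → IsStdChar v ψ →
    μ (v.adicCompletionIntegers K : Set (v.adicCompletion K)) = 1 →
    LocAx (fun x => ‖x‖) t n ψ μ 1 η F → F 1 1 = stdFn v →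
    (∀ a : v.adicCompletion K, Valued.v a = 1 → η a = 1) →
    IsInertL v t n →
    ∀ c : v.adicCompletion K, Valued.v c = WithZero.exp (-1 : ℤ) → η c = -1

end Fermat.Agent.LT.A2.H999
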