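import Fermat.Agent.LT.A2.H999.LGGen
import Fermat.Agent.LT.A2.H999.EtaSpec

/-!
# Row LT, tower A2, leaf A2.03.1.1.08 `WX467.LocGoodOfRepC` (helper999), part 4: certificates

OFF-MAIN.  The certificates `FinAt` and `GoodAt` for product data whose components at a good
place `v` are a standard family (`IsStdFam`) and `Tlev v = T(𝒪_v)`.
-/

set_option autoImplicit false

open IsDedekindDomain NumberField AutomorphicForm MeasureTheory
open scoped MatrixGroups Topology RestrictedProduct

noncomputable section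

namespace Fermat.Agent.LT.A2.H999

open Fermat.Agent.LT.H130 Fermat.Agent.LT.H556 Fermat.Agent.LT.A2 Fermat.Agent.LT.A2.WX467
open Fermat.Agent.LT.H129

variable {K : Type} [Field K] [NumberField K] (v : HeightOneSpectrum (𝓞 K))

attribute [local instance] borelMS999 borelSp999 secCount999 locCpt999

/-! ## `stdFn v` is a Schwartz--Bruhat function -/

theorem isClosed_intSet : IsClosed (intSet v) := Valued.isClosed_valuationSubring _

theorem isLocallyConstant_stdFn : IsLocallyConstant (stdFn v) := by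
  rw [IsLocallyConstant.iff_eventually_eq]
  intro x
  by_cases hx : x.1 ∈ intSet v ∧ x.2 ∈ intSet v
  · have hopen : IsOpen (intSet v ×ˢ intSet v) := (isOpen_intSet v).prod (isOpen_intSet v)
    filter_upwards [hopen.mem_nhds (Set.mem_prod.mpr hx)] with y hy
    rw [stdFn_of_mem hx.1 hx.2, stdFn_of_mem hy.1 hy.2]
  · have hcl : IsClosed (intSet v ×ˢ intSet v) := (isClosed_intSet v).prod (isClosed_intSet v)
    have hx' : x ∈ (intSet v ×ˢ intSet v)ᶜ := fun h => hx (Set.mem_prod.mp h)
    filter_upwards [hcl.isOpen_compl.mem_nhds hx'] with y hy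
    rw [stdFn_of_notMem hx, stdFn_of_notMem (fun h => hy (Set.mem_prod.mpr h))]

theorem hasCompactSupport_stdFn : HasCompactSupport (stdFn v) := by
  refine HasCompactSupport.intro ((isCompact_intSet v).prod (isCompact_intSet v)) ?_
  intro x hx
  exact stdFn_of_notMem (fun h => hx (Set.mem_prod.mpr h))

theorem stdFn_re_im (ξ : v.adicCompletion K × v.adicCompletion K) :
    0 ≤ (stdFn v ξ).re ∧ (stdFn v ξ).im = 0 := by
  by_cases hξ : ξ.1 ∈ intSet v ∧ ξ.2 ∈ intSet v
  · rw [stdFn_of_mem hξ.1 hξ.2]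
    simp
  · rw [stdFn_of_notMem hξ]
    simp

/-! ## The level group -/

theorem idealClosure_subset (𝔫 : Ideal (𝓞 K)) : A0.idealClosure 𝔫 v ⊆ intSet v := by
  unfold A0.idealClosure
  refine closure_minimal ?_ (isClosed_intSet v)
  rintro _ ⟨x, -, rfl⟩
  exact HeightOneSpectrum.coe_mem_adicCompletionIntegers (K := K) v x

variable {v}

theorem isIntM_of_sub_one {k : Matrix (Fin 2) (Fin 2) (v.adicCompletion K)}
    (h : ∀ i j : Fin 2, (k - 1) i j ∈ intSet v) : IsIntM k := by
  intro i j
  have e : k i j = (k - 1) i j + (1 : Matrix (Fin 2) (Fin 2) (v.adicCompletion K)) i j := by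
    simp
  rw [e]
  exact add_mem_intSet v (h i j) (isIntM_one i j)

theorem inLevL_isIntM {𝔫 : Ideal (𝓞 K)} {k : Matrix (Fin 2) (Fin 2) (v.adicCompletion K)}
    (h : InLevL 𝔫 v k) : IsIntM k :=
  isIntM_of_sub_one fun i j => idealClosure_subset v 𝔫 (h.2 i j).1

theorem inLevL_isIntM_inv {𝔫 : Ideal (𝓞 K)} {k : Matrix (Fin 2) (Fin 2) (v.adicCompletion K)}
    (h : InLevL 𝔫 v k) : IsIntM k⁻¹ :=
  isIntM_of_sub_one fun i j => idealClosure_subset v 𝔫 (h.2 i j).2

theorem inLevL_valued_det {𝔫 : Ideal (𝓞 K)} {k : Matrix (Fin 2) (Fin 2) (v.adicCompletion K)}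
    (h : InLevL 𝔫 v k) : Valued.v k.det = 1 :=
  valued_det_eq_one (inLevL_isIntM h) (inLevL_isIntM_inv h) h.1

/-! ## A neighbourhood of `1` in `T(𝒪_v)` -/

/-- The matrices congruent to `1` modulo the maximal ideal. -/
def nearOne (v : HeightOneSpectrum (𝓞 K)) : Set (Matrix (Fin 2) (Fin 2) (v.adicCompletion K)) :=
  {κ | ∀ i j : Fin 2, Valued.v ((κ - 1) i j) < 1}

theorem nearOne_mem_nhds : nearOne v ∈ 𝓝 (1 : Matrix (Fin 2) (Fin 2) (v.adicCompletion K)) := by
  have hopen : IsOpen (nearOne v) := by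
    have e : nearOne v = ⋂ i : Fin 2, ⋂ j : Fin 2,
        (fun κ : Matrix (Fin 2) (Fin 2) (v.adicCompletion K) => (κ - 1) i j) ⁻¹'
          {z : v.adicCompletion K | Valued.v z < 1} := by
      ext κ
      simp [nearOne]
    rw [e]
    refine isOpen_iInter_of_finite fun i => isOpen_iInter_of_finite fun j => ?_
    refine (Fermat.Agent.LT.H11.LC.isOpen_valued_lt_one_h11 K v).preimage ?_
    exact (continuous_id.sub continuous_const).matrix_elem i j
  refine hopen.mem_nhds ?_
  intro i j
  simp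

theorem nearOne_isIntM {κ : Matrix (Fin 2) (Fin 2) (v.adicCompletion K)} (h : κ ∈ nearOne v) :
    IsIntM κ :=
  isIntM_of_sub_one fun i j => (mem_intSet v).mpr (h i j).le

theorem nearOne_valued_det {κ : Matrix (Fin 2) (Fin 2) (v.adicCompletion K)}
    (h : κ ∈ nearOne v) : Valued.v κ.det = 1 := by
  have h00 : Valued.v (κ 0 0 - 1) < 1 := by simpa using h 0 0
  have h11 : Valued.v (κ 1 1 - 1) < 1 := by simpa using h 1 1
  have h01 : Valued.v (κ 0 1) < 1 := by simpa using h 0 1
  have h10 : Valued.v (κ 1 0) < 1 := by simpa using h 1 0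
  have e : κ.det = 1 + ((κ 0 0 - 1) + (κ 1 1 - 1) + (κ 0 0 - 1) * (κ 1 1 - 1) - κ 0 1 * κ 1 0) := by
    rw [Matrix.det_fin_two]
    ring
  rw [e]
  refine Valuation.map_one_add_of_lt _ ?_
  have hmul : ∀ {x y : v.adicCompletion K}, Valued.v x < 1 → Valued.v y < 1 →
      Valued.v (x * y) < 1 := by
    intro x y hx hy
    rw [map_mul]
    calc Valued.v x * Valued.v y ≤ Valued.v x * 1 := mul_le_mul_right hy.le _
      _ = Valued.v x := mul_one _
      _ < 1 := hx
  refine Valuation.map_sub_lt _ ?_ (hmul h01 h10)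
  refine Valuation.map_add_lt _ (Valuation.map_add_lt _ h00 h11) (hmul h00 h11)

/-! ## The torus -/

theorem actL_torMat_one_zero {R : Type} [Field R] (t n a b : R) :
    actL (torMat t n a b) (1, 0) = (a, b) := by
  unfold actL torMat
  ext <;> simp

theorem isIntM_torMat {t n a b : v.adicCompletion K} (ht : t ∈ intSet v) (hn : n ∈ intSet v)
    (ha : a ∈ intSet v) (hb : b ∈ intSet v) : IsIntM (torMat t n a b) := by
  intro i j
  fin_cases i <;> fin_cases j
  · exact ha
  · exact neg_mem_intSet v (mul_mem_intSet v hn hb)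
  · exact hb
  · exact add_mem_intSet v ha (mul_mem_intSet v ht hb)

/-- Inertness in local terms. -/
theorem isInertL_of_isInertAt {t n : K}
    (hq : IsGoodQ (algebraMap K (v.adicCompletion K) t) (algebraMap K (v.adicCompletion K) n))
    (h : WL.IsInertAt t n v) :
    IsInertL v (algebraMap K (v.adicCompletion K) t) (algebraMap K (v.adicCompletion K) n) := by
  intro a b ha hb hval
  set t' := algebraMap K (v.adicCompletion K) t
  set n' := algebraMap K (v.adicCompletion K) n
  have hdet : (torMat t' n' a b).det = a ^ 2 + t' * a * b + n' * b ^ 2 := det_torMat t' n' a b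
  have hdet0 : (torMat t' n' a b).det ≠ 0 := by
    rw [hdet]
    intro h0
    rw [h0, map_zero] at hval
    exact WithZero.exp_ne_zero hval.symm
  have hfc : A0.finComp v (locFin129 v (Matrix.GeneralLinearGroup.mkOfDetNeZero _ hdet0))
      = torMat t' n' a b := finComp_locFin129 v _
  refine h (locFin129 v (Matrix.GeneralLinearGroup.mkOfDetNeZero _ hdet0)) ?_
    (isLocalAtFin_locFin129 v _) ?_ ?_
  · refine inTorus_of_local v (isLocalAtFin_locFin129 v _) ?_
    rw [hfc]
    exact ⟨a, b, rfl⟩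
  · intro i j
    rw [hfc]
    exact isIntM_torMat hq.t_int hq.n_int ha hb i j
  · rw [hfc, hdet]
    exact hval

/-! ## The certificates -/

section Cert

variable {L : WData K}

/-- **`FinAt`** from a standard family. -/
theorem finAt_of_stdFam (huniq : LocUniqC)
    (hfam : IsStdFam (L.tfin v) (L.nfin v) (L.ψfin v) (L.μfin v) (L.γfin v) (L.ηfin v)
      (L.Ffin v))
    (hsb : ∀ g m : Matrix (Fin 2) (Fin 2) (v.adicCompletion K),
      AdmL (L.tfin v) (L.nfin v) g m →
      IsLocallyConstant (L.Ffin v g m) ∧ HasCompactSupport (L.Ffin v g m))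
    (hpsi : ∀ x : A0.Adl K, WL.AdlAtFin v x → L.ψ x = L.ψfin v (x.2 v))
    (hT : L.Tlev v = torIntL (L.tfin v) (L.nfin v))
    (hga : GoodArith L.t L.n L.χT L.ψ v) : FinAt L v where
  ax := hfam.ax
  psi := hpsi
  sb := hsb
  tlev_tor := by
    intro κ hκ
    rw [hT] at hκ
    exact ⟨hκ.1, hκ.2.1⟩
  tlev_nhds := by
    refine ⟨nearOne v, nearOne_mem_nhds, fun κ hκ hκT => ?_⟩
    rw [hT]
    exact ⟨hκT, ne_zero_of_valued_eq_one (nearOne_valued_det hκ), nearOne_isIntM hκ,
      IsIntM.inv (nearOne_isIntM hκ) (nearOne_valued_det hκ)⟩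
  tlev_mul := by
    intro κ hκ κ' hκ'
    rw [hT] at hκ hκ' ⊢
    exact torIntL_mul hκ hκ'
  tlev_inv := by
    intro κ hκ
    rw [hT] at hκ ⊢
    exact torIntL_inv hκ
  right_inv := by
    intro k κ hk hκ hdet g m ξ hgm
    rw [hT] at hκ
    exact hfam.right_inv huniq (inLevL_isIntM hk) hκ hdet g m ξ hgm
  right_ex := by
    intro k hk
    obtain ⟨κ, hκ, hdet⟩ := exists_torInt_det v
      (show GoodTor L.t L.n L.χT v from ⟨hga.good_int, hga.good_char, hga.good_norm⟩)
      (inLevL_valued_det hk)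
    refine ⟨κ, ?_, hdet⟩
    rw [hT]
    exact hκ
  chi_triv := by
    intro κ hloc hmem
    rw [hT] at hmem
    exact hga.good_char κ (inTorusIntAt_of_local v hloc hmem)
  pos := by
    refine ⟨fun ξ => ?_, ?_⟩
    · rw [hfam.std]
      exact stdFn_re_im v ξ
    · rw [hfam.std, stdFn_of_mem (y := ((1 : v.adicCompletion K), (0 : v.adicCompletion K)))
        (one_mem_intSet v) (zero_mem_intSet v)]
      exact one_ne_zero
  orb := by
    intro κ hκ hdet hne
    rw [hT]
    obtain ⟨a, b, rfl⟩ := hκ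
    have hinv : (torMat (L.tfin v) (L.nfin v) a b)⁻¹
        = torMat (L.tfin v) (L.nfin v) (a + L.tfin v * b) (-b) := by
      rw [torMat_inv, hdet, inv_one, one_mul, one_mul]
    rw [hfam.std, hinv, actL_torMat_one_zero] at hne
    have hmem : a + L.tfin v * b ∈ intSet v ∧ -b ∈ intSet v := by
      by_contra hcon
      exact hne (stdFn_of_notMem hcon)
    have hb : b ∈ intSet v := by
      have := neg_mem_intSet v hmem.2
      rwa [neg_neg] at this
    have ha : a ∈ intSet v := by
      have := sub_mem_intSet v hmem.1 (mul_mem_intSet v hfam.good.t_int hb)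
      rwa [add_sub_cancel_right] at this
    have hint : IsIntM (torMat (L.tfin v) (L.nfin v) a b) :=
      isIntM_torMat hfam.good.t_int hfam.good.n_int ha hb
    have hd1 : Valued.v (torMat (L.tfin v) (L.nfin v) a b).det = 1 := by
      rw [hdet, map_one]
    exact ⟨⟨a, b, rfl⟩, ne_zero_of_valued_eq_one hd1, hint, IsIntM.inv hint hd1⟩

/-- **`GoodAt`** from a standard family. -/
theorem goodAt_of_stdFam (hinert : InertEtaC)
    (hfam : IsStdFam (L.tfin v) (L.nfin v) (L.ψfin v) (L.μfin v) (L.γfin v) (L.ηfin v)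
      (L.Ffin v))
    (hT : L.Tlev v = torIntL (L.tfin v) (L.nfin v))
    (hga : GoodArith L.t L.n L.χT L.ψ v)
    (hη : ∀ a : (A0.Adl K)ˣ, IsIdeleAt v a → L.η a = L.ηfin v ((a : A0.Adl K).2 v)) :
    GoodAt L v where
  good_int := hga.good_int
  good_char := hga.good_char
  good_norm := hga.good_norm
  good_eta := by
    refine ⟨fun a ha => ?_, fun hin a ha => ?_⟩
    · rw [hη a ha.1]
      exact hfam.eta _ ha.2
    · rw [hη a ha.1]
      have hax := hfam.ax
      rw [hfam.gamma_eq_one] at hax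
      exact hinert K v (L.tfin v) (L.nfin v) (L.ψfin v) (L.μfin v) (L.ηfin v) (L.Ffin v)
        hfam.good hfam.char hfam.meas hax hfam.std hfam.eta
        (isInertL_of_isInertAt hfam.good hin) _ ha.2
  good_psi := hga.good_psi
  gamma_one := hfam.gamma_eq_one
  meas_one := hfam.meas
  eta_unram := hfam.eta
  std := hfam.std
  tlev := by
    intro κ
    rw [hT]
    exact Iff.rfl

end Cert

end Fermat.Agent.LT.A2.H999
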