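import Fermat.Agent.LT.A2.H999.LGMeasure

/-!
# Row LT, tower A2, leaf A2.03.1.1.08 `WX467.LocGoodOfRepC` (helper999), part 3: generation

OFF-MAIN.  For a local Weil family `F` at a good place with initial vector `stdFn v` and
`μ(𝒪_v) = 1`:

* `γ = 1` (`(w n(1))³ = 1`, `w⁴ = 1`);
* `F h 1 = stdFn v` for `h ∈ SL₂(𝒪_v)` (`SL₂(𝒪_v)` is generated by `n(x)`, `t(a)`, `w`);
* `F k κ = stdFn v` for `k ∈ GL₂(𝒪_v)`, `κ ∈ T(𝒪_v)`, `det k = det κ`;
* right invariance under these pairs, by the uniqueness `LocUniqC`.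
-/

set_option autoImplicit false

open IsDedekindDomain NumberField AutomorphicForm MeasureTheory
open scoped MatrixGroups Topology RestrictedProduct

noncomputable section

namespace Fermat.Agent.LT.A2.H999

open Fermat.Agent.LT.H130 Fermat.Agent.LT.H556 Fermat.Agent.LT.A2 Fermat.Agent.LT.A2.WX467
open Fermat.Agent.LT.H129

variable {K : Type} [Field K] [NumberField K] (v : HeightOneSpectrum (𝓞 K))

attribute [local instance] borelMS999 borelSp999 secCount999 locCpt999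

/-! ## Valuations and norms -/

section Val

variable {v}

theorem ne_zero_of_valued_eq_one {a : v.adicCompletion K} (ha : Valued.v a = 1) : a ≠ 0 := by
  rintro rfl
  rw [map_zero] at ha
  exact zero_ne_one ha

theorem norm_eq_one_of_valued {a : v.adicCompletion K} (ha : Valued.v a = 1) : ‖a‖ = 1 := by
  have h1 : ‖a‖ ≤ 1 := Valued.toNormedField.norm_le_one_iff.mpr ha.le
  have h2 : ¬ ‖a‖ < 1 := fun h => by
    have := Valued.toNormedField.norm_lt_one_iff.mp h
    rw [ha] at this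
    exact lt_irrefl _ this
  exact le_antisymm h1 (not_lt.mp h2)

theorem valued_inv_eq_one {a : v.adicCompletion K} (ha : Valued.v a = 1) :
    Valued.v a⁻¹ = 1 := by
  rw [map_inv₀, ha, inv_one]

theorem mul_mem_intSet_iff {a x : v.adicCompletion K} (ha : Valued.v a = 1) :
    a * x ∈ intSet v ↔ x ∈ intSet v := by
  rw [mem_intSet, mem_intSet, map_mul, ha, one_mul]

theorem mem_intSet_of_valued_eq_one {a : v.adicCompletion K} (ha : Valued.v a = 1) :
    a ∈ intSet v := (mem_intSet v).mpr ha.le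

theorem valued_eq_one_of_mul {a d : v.adicCompletion K} (ha : a ∈ intSet v) (hd : d ∈ intSet v)
    (h : Valued.v (a * d) = 1) : Valued.v a = 1 := by
  rw [mem_intSet] at ha hd
  refine le_antisymm ha ?_
  rw [map_mul] at h
  calc (1 : WithZero (Multiplicative ℤ)) = Valued.v a * Valued.v d := h.symm
    _ ≤ Valued.v a * 1 := mul_le_mul_right hd _
    _ = Valued.v a := mul_one _

theorem stdFn_smul {a : v.adicCompletion K} (ha : Valued.v a = 1)
    (ξ : v.adicCompletion K × v.adicCompletion K) : stdFn v (a • ξ) = stdFn v ξ := by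
  have e1 : (a • ξ).1 = a * ξ.1 := rfl
  have e2 : (a • ξ).2 = a * ξ.2 := rfl
  by_cases hξ : ξ.1 ∈ intSet v ∧ ξ.2 ∈ intSet v
  · rw [stdFn_of_mem hξ.1 hξ.2, stdFn_of_mem]
    · rw [e1]; exact (mul_mem_intSet_iff ha).mpr hξ.1
    · rw [e2]; exact (mul_mem_intSet_iff ha).mpr hξ.2
  · rw [stdFn_of_notMem hξ, stdFn_of_notMem]
    rintro ⟨h1, h2⟩
    rw [e1] at h1
    rw [e2] at h2
    exact hξ ⟨(mul_mem_intSet_iff ha).mp h1, (mul_mem_intSet_iff ha).mp h2⟩

end Val

/-! ## Matrices -/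

section Mat

variable {v}

/-- The integral matrices. -/
def IsIntM (M : Matrix (Fin 2) (Fin 2) (v.adicCompletion K)) : Prop :=
  ∀ i j : Fin 2, M i j ∈ intSet v

theorem actL_mul (A B : Matrix (Fin 2) (Fin 2) (v.adicCompletion K))
    (ξ : v.adicCompletion K × v.adicCompletion K) : actL (A * B) ξ = actL A (actL B ξ) := by
  unfold actL
  simp only [Matrix.mul_apply, Fin.sum_univ_two]
  ext <;> simp <;> ring

theorem actL_one (ξ : v.adicCompletion K × v.adicCompletion K) :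
    actL (1 : Matrix (Fin 2) (Fin 2) (v.adicCompletion K)) ξ = ξ := by
  unfold actL
  ext <;> simp

theorem IsIntM.actL_mem {M : Matrix (Fin 2) (Fin 2) (v.adicCompletion K)} (hM : IsIntM M)
    {ξ : v.adicCompletion K × v.adicCompletion K} (h1 : ξ.1 ∈ intSet v) (h2 : ξ.2 ∈ intSet v) :
    (actL M ξ).1 ∈ intSet v ∧ (actL M ξ).2 ∈ intSet v :=
  ⟨add_mem_intSet v (mul_mem_intSet v (hM 0 0) h1) (mul_mem_intSet v (hM 0 1) h2),
    add_mem_intSet v (mul_mem_intSet v (hM 1 0) h1) (mul_mem_intSet v (hM 1 1) h2)⟩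

theorem stdFn_actL {M : Matrix (Fin 2) (Fin 2) (v.adicCompletion K)} (hM : IsIntM M)
    (hM' : IsIntM M⁻¹) (hdet : M.det ≠ 0) (ξ : v.adicCompletion K × v.adicCompletion K) :
    stdFn v (actL M ξ) = stdFn v ξ := by
  have hu : IsUnit M.det := isUnit_iff_ne_zero.mpr hdet
  by_cases hξ : ξ.1 ∈ intSet v ∧ ξ.2 ∈ intSet v
  · obtain ⟨h1, h2⟩ := hM.actL_mem hξ.1 hξ.2
    rw [stdFn_of_mem hξ.1 hξ.2, stdFn_of_mem h1 h2]
  · rw [stdFn_of_notMem hξ, stdFn_of_notMem]
    rintro ⟨h1, h2⟩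
    apply hξ
    have e : ξ = actL M⁻¹ (actL M ξ) := by
      rw [← actL_mul, Matrix.nonsing_inv_mul _ hu, actL_one]
    rw [e]
    exact hM'.actL_mem h1 h2

theorem IsIntM.det_mem {M : Matrix (Fin 2) (Fin 2) (v.adicCompletion K)} (hM : IsIntM M) :
    M.det ∈ intSet v := by
  rw [Matrix.det_fin_two]
  exact sub_mem_intSet v (mul_mem_intSet v (hM 0 0) (hM 1 1))
    (mul_mem_intSet v (hM 0 1) (hM 1 0))

theorem valued_det_eq_one {M : Matrix (Fin 2) (Fin 2) (v.adicCompletion K)} (hM : IsIntM M)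
    (hM' : IsIntM M⁻¹) (hdet : M.det ≠ 0) : Valued.v M.det = 1 := by
  have h1 := (mem_intSet v).mp hM.det_mem
  have h2 := (mem_intSet v).mp hM'.det_mem
  rw [Matrix.det_nonsing_inv, Ring.inverse_eq_inv', map_inv₀] at h2
  have h0 : Valued.v M.det ≠ 0 := (Valuation.ne_zero_iff _).mpr hdet
  refine le_antisymm h1 ?_
  exact (inv_le_one₀ (zero_lt_iff.mpr h0)).mp h2

theorem IsIntM.mul {A B : Matrix (Fin 2) (Fin 2) (v.adicCompletion K)} (hA : IsIntM A)
    (hB : IsIntM B) : IsIntM (A * B) := by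
  intro i j
  rw [Matrix.mul_apply, Fin.sum_univ_two]
  exact add_mem_intSet v (mul_mem_intSet v (hA i 0) (hB 0 j))
    (mul_mem_intSet v (hA i 1) (hB 1 j))

theorem isIntM_one : IsIntM (1 : Matrix (Fin 2) (Fin 2) (v.adicCompletion K)) := by
  intro i j
  by_cases h : i = j
  · subst h; rw [Matrix.one_apply_eq]; exact one_mem_intSet v
  · rw [Matrix.one_apply_ne h]; exact zero_mem_intSet v

/-- An integral matrix with unit determinant has an integral inverse. -/
theorem IsIntM.inv {M : Matrix (Fin 2) (Fin 2) (v.adicCompletion K)} (hM : IsIntM M)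
    (hdet : Valued.v M.det = 1) : IsIntM M⁻¹ := by
  have hd : M.det⁻¹ ∈ intSet v := mem_intSet_of_valued_eq_one (valued_inv_eq_one hdet)
  rw [Matrix.inv_def, Ring.inverse_eq_inv', Matrix.adjugate_fin_two]
  intro i j
  fin_cases i <;> fin_cases j
  · exact mul_mem_intSet v hd (hM 1 1)
  · exact mul_mem_intSet v hd (neg_mem_intSet v (hM 0 1))
  · exact mul_mem_intSet v hd (neg_mem_intSet v (hM 1 0))
  · exact mul_mem_intSet v hd (hM 0 0)

end Mat

/-! ## The local torus -/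

section Tor

variable {v}
variable {t n : v.adicCompletion K}

theorem inTorL_one : InTorL t n (1 : Matrix (Fin 2) (Fin 2) (v.adicCompletion K)) :=
  ⟨1, 0, (torMat_one_zero t n).symm⟩

theorem inTorL_mul {κ κ' : Matrix (Fin 2) (Fin 2) (v.adicCompletion K)} (h : InTorL t n κ)
    (h' : InTorL t n κ') : InTorL t n (κ * κ') := by
  obtain ⟨a, b, rfl⟩ := h
  obtain ⟨a', b', rfl⟩ := h'
  exact ⟨_, _, torMat_mul t n a b a' b'⟩

theorem torMat_inv {R : Type} [Field R] (t n a b : R) :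
    (torMat t n a b)⁻¹
      = torMat t n ((torMat t n a b).det⁻¹ * (a + t * b)) ((torMat t n a b).det⁻¹ * (-b)) := by
  rw [Matrix.inv_def, Ring.inverse_eq_inv']
  generalize (torMat t n a b).det⁻¹ = δ
  rw [Matrix.adjugate_fin_two]
  ext i j
  fin_cases i <;> fin_cases j <;> simp [torMat] <;> ring

theorem inTorL_inv {κ : Matrix (Fin 2) (Fin 2) (v.adicCompletion K)} (h : InTorL t n κ) :
    InTorL t n κ⁻¹ := by
  obtain ⟨a, b, rfl⟩ := h
  exact ⟨_, _, torMat_inv t n a b⟩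

theorem admL_of_det_one (t n : v.adicCompletion K)
    {g : Matrix (Fin 2) (Fin 2) (v.adicCompletion K)} (h : g.det = 1) : AdmL t n g 1 :=
  ⟨inTorL_one, by rw [h, Matrix.det_one], by rw [Matrix.det_one]; exact one_ne_zero⟩

theorem admL_mul {g m k κ : Matrix (Fin 2) (Fin 2) (v.adicCompletion K)} (h : AdmL t n g m)
    (hκ : InTorL t n κ) (hκ0 : κ.det ≠ 0) (hdet : k.det = κ.det) :
    AdmL t n (g * k) (m * κ) :=
  ⟨inTorL_mul h.1 hκ, by rw [Matrix.det_mul, Matrix.det_mul, h.2.1, hdet],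
    by rw [Matrix.det_mul]; exact mul_ne_zero h.2.2 hκ0⟩

/-- `T(𝒪_v)`, in local terms. -/
def torIntL (t n : v.adicCompletion K) : Set (Matrix (Fin 2) (Fin 2) (v.adicCompletion K)) :=
  {κ | InTorL t n κ ∧ κ.det ≠ 0 ∧ (∀ i j : Fin 2, κ i j ∈ v.adicCompletionIntegers K) ∧
    ∀ i j : Fin 2, κ⁻¹ i j ∈ v.adicCompletionIntegers K}

theorem torInt_eq (t n : K) :
    torInt v t n
      = torIntL (algebraMap K (v.adicCompletion K) t) (algebraMap K (v.adicCompletion K) n) :=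
  rfl

theorem torIntL_one : (1 : Matrix (Fin 2) (Fin 2) (v.adicCompletion K)) ∈ torIntL t n := by
  refine ⟨inTorL_one, by rw [Matrix.det_one]; exact one_ne_zero, isIntM_one, ?_⟩
  rw [inv_one]
  exact isIntM_one

theorem torIntL_mul {κ κ' : Matrix (Fin 2) (Fin 2) (v.adicCompletion K)} (h : κ ∈ torIntL t n)
    (h' : κ' ∈ torIntL t n) : κ * κ' ∈ torIntL t n := by
  refine ⟨inTorL_mul h.1 h'.1, ?_, IsIntM.mul h.2.2.1 h'.2.2.1, ?_⟩
  · rw [Matrix.det_mul]; exact mul_ne_zero h.2.1 h'.2.1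
  · rw [Matrix.mul_inv_rev]
    exact IsIntM.mul h'.2.2.2 h.2.2.2

theorem torIntL_inv {κ : Matrix (Fin 2) (Fin 2) (v.adicCompletion K)} (h : κ ∈ torIntL t n) :
    κ⁻¹ ∈ torIntL t n := by
  have hu : IsUnit κ.det := isUnit_iff_ne_zero.mpr h.2.1
  refine ⟨inTorL_inv h.1, ?_, h.2.2.2, ?_⟩
  · rw [Matrix.det_nonsing_inv, Ring.inverse_eq_inv']
    exact inv_ne_zero h.2.1
  · rw [Matrix.nonsing_inv_nonsing_inv _ hu]
    exact h.2.2.1

end Tor

/-! ## Matrix identities -/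

section Ident

variable {R : Type} [Field R]

theorem w4_mul (g : Matrix (Fin 2) (Fin 2) R) :
    (!![0, 1; -1, 0] : Matrix (Fin 2) (Fin 2) R)
      * (!![0, 1; -1, 0] * (!![0, 1; -1, 0] * (!![0, 1; -1, 0] * g))) = g := by
  have h : (!![0, 1; -1, 0] : Matrix (Fin 2) (Fin 2) R)
      * (!![0, 1; -1, 0] * (!![0, 1; -1, 0] * !![0, 1; -1, 0])) = 1 := by
    simp [Matrix.one_fin_two]
  calc (!![0, 1; -1, 0] : Matrix (Fin 2) (Fin 2) R)
        * (!![0, 1; -1, 0] * (!![0, 1; -1, 0] * (!![0, 1; -1, 0] * g)))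
      = ((!![0, 1; -1, 0] : Matrix (Fin 2) (Fin 2) R)
        * (!![0, 1; -1, 0] * (!![0, 1; -1, 0] * !![0, 1; -1, 0]))) * g := by
        simp only [Matrix.mul_assoc]
    _ = g := by rw [h, Matrix.one_mul]

theorem wn3_one :
    (!![0, 1; -1, 0] : Matrix (Fin 2) (Fin 2) R)
      * (!![1, 1; 0, 1] * (!![0, 1; -1, 0] * (!![1, 1; 0, 1]
        * (!![0, 1; -1, 0] * (!![1, 1; 0, 1] * 1))))) = 1 := by
  simp [Matrix.one_fin_two]

theorem bruhat_eq (M : Matrix (Fin 2) (Fin 2) R) (hc : M 1 0 ≠ 0) (hdet : M.det = 1) :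
    M = !![1, M 0 0 / M 1 0; 0, 1] * (!![-(M 1 0)⁻¹, 0; 0, (-(M 1 0)⁻¹)⁻¹]
      * (!![0, 1; -1, 0] * !![1, M 1 1 / M 1 0; 0, 1])) := by
  rw [Matrix.det_fin_two] at hdet
  have hb : M 0 1 = (M 0 0 * M 1 1 - 1) / M 1 0 := by
    field_simp
    linear_combination -hdet
  ext i j
  fin_cases i <;> fin_cases j
  · simp
    field_simp
  · simp
    rw [hb]
    field_simp
    ring
  · simp
  · simp
    field_simp

theorem diagOne_cancel (δ : R) (hδ : δ ≠ 0) (k : Matrix (Fin 2) (Fin 2) R) :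
    (!![1, 0; 0, δ] : Matrix (Fin 2) (Fin 2) R) * (!![1, 0; 0, δ⁻¹] * k) = k := by
  rw [← Matrix.mul_assoc]
  have h : (!![1, 0; 0, δ] : Matrix (Fin 2) (Fin 2) R) * !![1, 0; 0, δ⁻¹] = 1 := by
    simp [Matrix.one_fin_two, hδ]
  rw [h, Matrix.one_mul]

theorem det_unipM (x : R) : (!![1, x; 0, 1] : Matrix (Fin 2) (Fin 2) R).det = 1 := by
  simp [Matrix.det_fin_two]

theorem det_weylM : (!![0, 1; -1, 0] : Matrix (Fin 2) (Fin 2) R).det = 1 := by
  simp [Matrix.det_fin_two]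

theorem det_diagM (a : R) (ha : a ≠ 0) :
    (!![a, 0; 0, a⁻¹] : Matrix (Fin 2) (Fin 2) R).det = 1 := by
  simp [Matrix.det_fin_two, ha]

theorem det_diagOneM (δ : R) : (!![1, 0; 0, δ] : Matrix (Fin 2) (Fin 2) R).det = δ := by
  simp [Matrix.det_fin_two]

theorem weyl_mul_apply (M : Matrix (Fin 2) (Fin 2) R) :
    (!![0, 1; -1, 0] : Matrix (Fin 2) (Fin 2) R) * M = !![M 1 0, M 1 1; -M 0 0, -M 0 1] := by
  ext i j
  fin_cases i <;> fin_cases j <;> simp [Matrix.mul_apply, Fin.sum_univ_two]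

theorem diagOne_mul_apply (δ : R) (M : Matrix (Fin 2) (Fin 2) R) :
    (!![1, 0; 0, δ] : Matrix (Fin 2) (Fin 2) R) * M
      = !![M 0 0, M 0 1; δ * M 1 0, δ * M 1 1] := by
  ext i j
  fin_cases i <;> fin_cases j <;> simp [Matrix.mul_apply, Fin.sum_univ_two]

end Ident

/-! ## Standard families -/

section Fam

variable {v}

/-- A local Weil family at a good place, with initial vector `stdFn v` and `μ(𝒪_v) = 1`. -/
structure IsStdFam (t n : v.adicCompletion K) (ψ : v.adicCompletion K → ℂ)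
    (μ : Measure (v.adicCompletion K)) (γ : ℂ) (η : v.adicCompletion K → ℂ)
    (F : Matrix (Fin 2) (Fin 2) (v.adicCompletion K) →
      Matrix (Fin 2) (Fin 2) (v.adicCompletion K) →
      v.adicCompletion K × v.adicCompletion K → ℂ) : Prop where
  ax : LocAx (fun x => ‖x‖) t n ψ μ γ η F
  std : F 1 1 = stdFn v
  meas : μ (intSet v) = 1
  char : IsStdChar v ψ
  good : IsGoodQ t n
  eta : ∀ a : v.adicCompletion K, Valued.v a = 1 → η a = 1

/-- The `g ∈ SL₂(K_v)` with `F g 1 = c · stdFn v`. -/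
def fixSet (F : Matrix (Fin 2) (Fin 2) (v.adicCompletion K) →
      Matrix (Fin 2) (Fin 2) (v.adicCompletion K) →
      v.adicCompletion K × v.adicCompletion K → ℂ) (c : ℂ) :
    Set (Matrix (Fin 2) (Fin 2) (v.adicCompletion K)) :=
  {g | g.det = 1 ∧ ∀ ξ, F g 1 ξ = c * stdFn v ξ}

variable {t n : v.adicCompletion K} {ψ : v.adicCompletion K → ℂ}
  {μ : Measure (v.adicCompletion K)} {γ : ℂ} {η : v.adicCompletion K → ℂ}
  {F : Matrix (Fin 2) (Fin 2) (v.adicCompletion K) →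
      Matrix (Fin 2) (Fin 2) (v.adicCompletion K) →
      v.adicCompletion K × v.adicCompletion K → ℂ}

theorem IsStdFam.one_mem (h : IsStdFam t n ψ μ γ η F) :
    (1 : Matrix (Fin 2) (Fin 2) (v.adicCompletion K)) ∈ fixSet F 1 :=
  ⟨Matrix.det_one, fun ξ => by rw [h.std, one_mul]⟩

theorem IsStdFam.fix_unip (h : IsStdFam t n ψ μ γ η F) {c : ℂ}
    {g : Matrix (Fin 2) (Fin 2) (v.adicCompletion K)} (hg : g ∈ fixSet F c)
    {x : v.adicCompletion K} (hx : x ∈ intSet v) : !![1, x; 0, 1] * g ∈ fixSet F c := by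
  refine ⟨by rw [Matrix.det_mul, hg.1, det_unipM, one_mul], fun ξ => ?_⟩
  rw [h.ax.unip x g 1 ξ (admL_of_det_one t n hg.1), hg.2 ξ]
  by_cases hξ : ξ.1 ∈ intSet v ∧ ξ.2 ∈ intSet v
  · rw [h.char.int _ (mul_mem_intSet v hx (h.good.qfL_mem hξ.1 hξ.2)), one_mul]
  · rw [stdFn_of_notMem hξ, mul_zero, mul_zero]

theorem IsStdFam.fix_weyl (h : IsStdFam t n ψ μ γ η F) {c : ℂ}
    {g : Matrix (Fin 2) (Fin 2) (v.adicCompletion K)} (hg : g ∈ fixSet F c) :
    !![0, 1; -1, 0] * g ∈ fixSet F (γ * c) := by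
  refine ⟨by rw [Matrix.det_mul, hg.1, det_weylM, one_mul], fun ξ => ?_⟩
  rw [h.ax.weyl g 1 ξ (admL_of_det_one t n hg.1)]
  have e : (fun y => F g 1 y * ψ (bfL t n ξ y))
      = fun y => c * (stdFn v y * ψ (bfL t n ξ y)) := by
    funext y
    rw [hg.2 y, mul_assoc]
  rw [e]
  have e2 : intL μ (fun y => c * (stdFn v y * ψ (bfL t n ξ y)))
      = c * intL μ (fun y => stdFn v y * ψ (bfL t n ξ y)) := by
    unfold intL
    exact integral_const_mul _ _
  rw [e2, ft_stdFn h.ax.haar h.meas h.char h.good ξ, mul_assoc]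

theorem IsStdFam.fix_diag (h : IsStdFam t n ψ μ γ η F) {c : ℂ}
    {g : Matrix (Fin 2) (Fin 2) (v.adicCompletion K)} (hg : g ∈ fixSet F c)
    {a : v.adicCompletion K} (ha : Valued.v a = 1) : !![a, 0; 0, a⁻¹] * g ∈ fixSet F c := by
  have ha0 := ne_zero_of_valued_eq_one ha
  refine ⟨by rw [Matrix.det_mul, hg.1, det_diagM a ha0, one_mul], fun ξ => ?_⟩
  rw [h.ax.diag a ha0 g 1 ξ (admL_of_det_one t n hg.1), hg.2, h.eta a ha,
    norm_eq_one_of_valued ha, stdFn_smul ha]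
  simp

theorem stdFn_zero : stdFn v (0 : v.adicCompletion K × v.adicCompletion K) = 1 :=
  stdFn_of_mem (zero_mem_intSet v) (zero_mem_intSet v)

/-- **`γ = 1`.** -/
theorem IsStdFam.gamma_eq_one (h : IsStdFam t n ψ μ γ η F) : γ = 1 := by
  have h1 := h.one_mem
  have hw4 := h.fix_weyl (h.fix_weyl (h.fix_weyl (h.fix_weyl h1)))
  have hwn3 := h.fix_weyl (h.fix_unip (h.fix_weyl (h.fix_unip (h.fix_weyl
    (h.fix_unip h1 (one_mem_intSet v))) (one_mem_intSet v))) (one_mem_intSet v))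
  rw [w4_mul] at hw4
  rw [wn3_one] at hwn3
  have e4 := hw4.2 0
  have e3 := hwn3.2 0
  rw [h.std, stdFn_zero, mul_one] at e4 e3
  calc γ = γ * (γ * (γ * (γ * 1))) := by rw [← e3, mul_one]
    _ = 1 := e4.symm

theorem IsStdFam.fix_weyl' (h : IsStdFam t n ψ μ γ η F)
    {g : Matrix (Fin 2) (Fin 2) (v.adicCompletion K)} (hg : g ∈ fixSet F 1) :
    !![0, 1; -1, 0] * g ∈ fixSet F 1 := by
  have := h.fix_weyl hg
  rw [h.gamma_eq_one, one_mul] at this
  exact this

/-- `SL₂(𝒪_v)` fixes `stdFn v`, the case of a unit in the lower left corner. -/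
theorem IsStdFam.sl2_mem_of_unit (h : IsStdFam t n ψ μ γ η F)
    {M : Matrix (Fin 2) (Fin 2) (v.adicCompletion K)} (hM : IsIntM M) (hdet : M.det = 1)
    (hc : Valued.v (M 1 0) = 1) : M ∈ fixSet F 1 := by
  have hc0 := ne_zero_of_valued_eq_one hc
  have hci : (M 1 0)⁻¹ ∈ intSet v := mem_intSet_of_valued_eq_one (valued_inv_eq_one hc)
  have h1 : (!![1, M 1 1 / M 1 0; 0, 1] : Matrix (Fin 2) (Fin 2) (v.adicCompletion K))
      ∈ fixSet F 1 := by
    have := h.fix_unip h.one_mem (x := M 1 1 / M 1 0)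
      (by rw [div_eq_mul_inv]; exact mul_mem_intSet v (hM 1 1) hci)
    rw [Matrix.mul_one] at this
    exact this
  have h2 := h.fix_weyl' h1
  have h3 := h.fix_diag h2 (a := -(M 1 0)⁻¹)
    (by rw [Valuation.map_neg]; exact valued_inv_eq_one hc)
  have h4 := h.fix_unip h3 (x := M 0 0 / M 1 0)
    (by rw [div_eq_mul_inv]; exact mul_mem_intSet v (hM 0 0) hci)
  rw [← bruhat_eq M hc0 hdet] at h4
  exact h4

/-- **`SL₂(𝒪_v)` fixes `stdFn v`.** -/
theorem IsStdFam.sl2_mem (h : IsStdFam t n ψ μ γ η F)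
    {M : Matrix (Fin 2) (Fin 2) (v.adicCompletion K)} (hM : IsIntM M) (hdet : M.det = 1) :
    M ∈ fixSet F 1 := by
  by_cases hc : Valued.v (M 1 0) = 1
  · exact h.sl2_mem_of_unit hM hdet hc
  · have hc' : Valued.v (M 1 0) < 1 := lt_of_le_of_ne ((mem_intSet v).mp (hM 1 0)) hc
    have hbc : Valued.v (-(M 0 1 * M 1 0)) < 1 := by
      rw [Valuation.map_neg, map_mul]
      calc Valued.v (M 0 1) * Valued.v (M 1 0) ≤ 1 * Valued.v (M 1 0) :=
            mul_le_mul_left ((mem_intSet v).mp (hM 0 1)) _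
        _ = Valued.v (M 1 0) := one_mul _
        _ < 1 := hc'
    have had : Valued.v (M 0 0 * M 1 1) = 1 := by
      have e : M 0 0 * M 1 1 = 1 + (M 0 1 * M 1 0) := by
        rw [Matrix.det_fin_two] at hdet
        linear_combination hdet
      rw [e]
      rw [Valuation.map_neg] at hbc
      exact Valuation.map_one_add_of_lt _ hbc
    have ha : Valued.v (M 0 0) = 1 := valued_eq_one_of_mul (hM 0 0) (hM 1 1) had
    have hwM : IsIntM ((!![0, 1; -1, 0] : Matrix (Fin 2) (Fin 2) (v.adicCompletion K)) * M) := by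
      rw [weyl_mul_apply]
      intro i j
      fin_cases i <;> fin_cases j
      · exact hM 1 0
      · exact hM 1 1
      · exact neg_mem_intSet v (hM 0 0)
      · exact neg_mem_intSet v (hM 0 1)
    have h1 := h.sl2_mem_of_unit hwM (by rw [Matrix.det_mul, det_weylM, hdet, one_mul])
      (by
        rw [weyl_mul_apply]
        show Valued.v (-M 0 0) = 1
        rw [Valuation.map_neg]
        exact ha)
    have h2 := h.fix_weyl' (h.fix_weyl' (h.fix_weyl' h1))
    rw [w4_mul] at h2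
    exact h2

/-- **The pairs `(k, κ)`, `k ∈ GL₂(𝒪_v)`, `κ ∈ T(𝒪_v)`, `det k = det κ`, fix `stdFn v`.** -/
theorem IsStdFam.level_fix (h : IsStdFam t n ψ μ γ η F)
    {k κ : Matrix (Fin 2) (Fin 2) (v.adicCompletion K)} (hk : IsIntM k)
    (hκ : κ ∈ torIntL t n) (hdet : k.det = κ.det) : F k κ = stdFn v := by
  have hδ : Valued.v κ.det = 1 := valued_det_eq_one hκ.2.2.1 hκ.2.2.2 hκ.2.1
  have hδi : κ.det⁻¹ ∈ intSet v := mem_intSet_of_valued_eq_one (valued_inv_eq_one hδ)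
  have hu : IsUnit κ.det := isUnit_iff_ne_zero.mpr hκ.2.1
  set h₀ : Matrix (Fin 2) (Fin 2) (v.adicCompletion K) := !![1, 0; 0, κ.det⁻¹] * k with hh₀
  have hint : IsIntM h₀ := by
    rw [hh₀, diagOne_mul_apply]
    intro i j
    fin_cases i <;> fin_cases j
    · exact hk 0 0
    · exact hk 0 1
    · exact mul_mem_intSet v hδi (hk 1 0)
    · exact mul_mem_intSet v hδi (hk 1 1)
  have hdet₀ : h₀.det = 1 := by
    rw [hh₀, Matrix.det_mul, det_diagOneM, hdet, inv_mul_cancel₀ hκ.2.1]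
  have hfix := h.sl2_mem hint hdet₀
  funext ξ
  have htor := h.ax.tor κ hκ.1 hκ.2.1 h₀ 1 ξ (admL_of_det_one t n hdet₀)
  rw [hh₀, diagOne_cancel _ hκ.2.1, Matrix.mul_one, norm_eq_one_of_valued hδ] at htor
  rw [← hh₀, hfix.2, one_mul] at htor
  have hκi : IsIntM (κ⁻¹)⁻¹ := by
    rw [Matrix.nonsing_inv_nonsing_inv _ hu]
    exact hκ.2.2.1
  have hdi : (κ⁻¹).det ≠ 0 := by
    rw [Matrix.det_nonsing_inv, Ring.inverse_eq_inv']
    exact inv_ne_zero hκ.2.1
  rw [stdFn_actL hκ.2.2.2 hκi hdi] at htor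
  simpa using htor

/-- **Right invariance** under the pairs `(k, κ)`, from the uniqueness of the family. -/
theorem IsStdFam.right_inv (huniq : LocUniqC) (h : IsStdFam t n ψ μ γ η F)
    {k κ : Matrix (Fin 2) (Fin 2) (v.adicCompletion K)} (hk : IsIntM k)
    (hκ : κ ∈ torIntL t n) (hdet : k.det = κ.det)
    (g m : Matrix (Fin 2) (Fin 2) (v.adicCompletion K))
    (ξ : v.adicCompletion K × v.adicCompletion K) (hgm : AdmL t n g m) :
    F (g * k) (m * κ) ξ = F g m ξ := by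
  have hadm : ∀ {g m : Matrix (Fin 2) (Fin 2) (v.adicCompletion K)}, AdmL t n g m →
      AdmL t n (g * k) (m * κ) := fun hgm => admL_mul hgm hκ.1 hκ.2.1 hdet
  have hax : LocAx (fun x : v.adicCompletion K => ‖x‖) t n ψ μ γ η
      (fun g m => F (g * k) (m * κ)) :=
    { unip := by
        intro x g m ξ hgm
        show F ((!![1, x; 0, 1] * g) * k) (m * κ) ξ = _
        rw [Matrix.mul_assoc]
        exact h.ax.unip x (g * k) (m * κ) ξ (hadm hgm)
      weyl := by
        intro g m ξ hgm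
        show F ((!![0, 1; -1, 0] * g) * k) (m * κ) ξ = _
        rw [Matrix.mul_assoc]
        exact h.ax.weyl (g * k) (m * κ) ξ (hadm hgm)
      diag := by
        intro a ha g m ξ hgm
        show F ((!![a, 0; 0, a⁻¹] * g) * k) (m * κ) ξ = _
        rw [Matrix.mul_assoc]
        exact h.ax.diag a ha (g * k) (m * κ) ξ (hadm hgm)
      tor := by
        intro μ' hμ' hμ'0 g m ξ hgm
        show _ * F ((!![1, 0; 0, μ'.det] * g) * k) ((μ' * m) * κ) ξ = _
        rw [Matrix.mul_assoc, Matrix.mul_assoc]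
        exact h.ax.tor μ' hμ' hμ'0 (g * k) (m * κ) ξ (hadm hgm)
      eta_mul := h.ax.eta_mul
      eta_sq := h.ax.eta_sq
      eta_norm := h.ax.eta_norm
      eta_cont := h.ax.eta_cont
      haar := h.ax.haar
      psi_char := h.ax.psi_char
      cont := fun g m hgm => h.ax.cont (g * k) (m * κ) (hadm hgm)
      integrable := fun g m hgm => h.ax.integrable (g * k) (m * κ) (hadm hgm) }
  have hpos : ∀ a : v.adicCompletion K, a ≠ 0 → 0 < (fun x : v.adicCompletion K => ‖x‖) a :=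
    fun a ha => norm_pos_iff.mpr ha
  have h11 : (fun g m => F (g * k) (m * κ)) 1 1 = F 1 1 := by
    show F (1 * k) (1 * κ) = F 1 1
    rw [Matrix.one_mul, Matrix.one_mul, h.level_fix hk hκ hdet, h.std]
  have := huniq (v.adicCompletion K) (fun x => ‖x‖) t n ψ μ γ η
    (fun g m => F (g * k) (m * κ)) F hpos hax h.ax h11 g m hgm
  exact congrFun this ξ

end Fam

end Fermat.Agent.LT.A2.H999
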