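import Fermat.Agent.LT.A2.H467.DataSpec
import Fermat.Agent.LT.H129.Local
import Fermat.Agent.LT.H11.LC
import Fermat.Agent.LT.H11.SC

/-!
# Row LT, tower A2, leaf A2.03.1.1.08 `WX467.LocGoodOfRepC` (helper999), part 1: dictionary

OFF-MAIN.  The dictionary between local objects at a finite place `v` (elements of `K_v`,
matrices over `K_v`) and adelic objects supported at `v`:

* `toAdl v y` : the adele with component `y` at `v` and `0` elsewhere (continuous, additive);
* `psiLoc v ψ` : the local component at `v` of a character `ψ` of the adeles;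
* `toIdele v a` : the idele with component `a` at `v` and `1` elsewhere;
* the local components of the elements of the torus.
-/

set_option autoImplicit false

open IsDedekindDomain NumberField AutomorphicForm MeasureTheory
open scoped MatrixGroups Topology RestrictedProduct

noncomputable section

namespace Fermat.Agent.LT.A2.H999

open Fermat.Agent.LT.H130 Fermat.Agent.LT.H556 Fermat.Agent.LT.A2 Fermat.Agent.LT.A2.WX467
open Fermat.Agent.LT.H129

variable {K : Type} [Field K] [NumberField K] (v : HeightOneSpectrum (𝓞 K))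

/-! ## Adeles supported at `v` -/

/-- The adele with component `y` at `v` and `0` at every other place. -/
def toAdl (y : v.adicCompletion K) : A0.Adl K := (0, finSingle129 v false y)

theorem toAdl_fin_same (y : v.adicCompletion K) : (toAdl v y).2 v = y :=
  finSingle129_same v false y

theorem toAdl_fin_ne (y : v.adicCompletion K) {v' : HeightOneSpectrum (𝓞 K)} (h : v' ≠ v) :
    (toAdl v y).2 v' = 0 := by
  have h1 : finSingle129 v false y v' = 0 := by
    have := finSingle129_of_ne v false y h
    simpa using this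
  exact h1

theorem toAdl_inf (y : v.adicCompletion K) (w : InfinitePlace K) : (toAdl v y).1 w = 0 := rfl

theorem adlAtFin_toAdl (y : v.adicCompletion K) : WL.AdlAtFin v (toAdl v y) :=
  ⟨fun w => toAdl_inf v y w, fun _ h => toAdl_fin_ne v y h⟩

theorem eq_toAdl_of_adlAtFin {x : A0.Adl K} (hx : WL.AdlAtFin v x) : x = toAdl v (x.2 v) := by
  refine adele_ext129 (fun w => ?_) (fun v' => ?_)
  · rw [hx.1 w, toAdl_inf]
  · by_cases h : v' = v
    · subst h; rw [toAdl_fin_same]
    · rw [hx.2 v' h, toAdl_fin_ne v _ h]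

theorem toAdl_add (y z : v.adicCompletion K) : toAdl v (y + z) = toAdl v y + toAdl v z := by
  refine adele_ext129 (fun w => ?_) (fun v' => ?_)
  · show (0 : w.Completion) = 0 + 0
    simp
  · show (toAdl v (y + z)).2 v' = (toAdl v y).2 v' + (toAdl v z).2 v'
    by_cases h : v' = v
    · subst h; simp only [toAdl_fin_same]
    · simp only [toAdl_fin_ne v _ h, add_zero]

theorem toAdl_zero : toAdl v (0 : v.adicCompletion K) = 0 := by
  have h := toAdl_add v (0 : v.adicCompletion K) 0
  rw [add_zero] at h
  exact left_eq_add.mp h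

/-- `y ↦ toAdl v y` is continuous. -/
theorem continuous_toAdl : Continuous (toAdl (K := K) v) := by
  classical
  have hS : Filter.cofinite ≤ Filter.principal ({v}ᶜ : Set (HeightOneSpectrum (𝓞 K))) := by
    rw [Filter.le_principal_iff]
    simp
  let f : v.adicCompletion K →
      Πʳ i : HeightOneSpectrum (𝓞 K), [i.adicCompletion K, i.adicCompletionIntegers K]_[
        Filter.principal ({v}ᶜ : Set (HeightOneSpectrum (𝓞 K)))] :=
    fun y => ⟨Pi.single v y, by
      rw [Filter.eventually_principal]
      intro i hi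
      have hi' : i ≠ v := hi
      rw [Pi.single_eq_of_ne hi']
      exact zero_mem _⟩
  have hf : Continuous f := by
    rw [RestrictedProduct.continuous_rng_of_principal_iff_forall]
    intro i
    by_cases h : i = v
    · subst h
      have : ((fun x : Πʳ i : HeightOneSpectrum (𝓞 K),
          [i.adicCompletion K, i.adicCompletionIntegers K]_[
            Filter.principal ({i}ᶜ : Set (HeightOneSpectrum (𝓞 K)))] => x i) ∘ f) = id := by
        funext y
        show Pi.single i y i = y
        simp
      rw [this]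
      exact continuous_id
    · have : ((fun x : Πʳ i : HeightOneSpectrum (𝓞 K),
          [i.adicCompletion K, i.adicCompletionIntegers K]_[
            Filter.principal ({v}ᶜ : Set (HeightOneSpectrum (𝓞 K)))] => x i) ∘ f)
          = fun _ => 0 := by
        funext y
        show Pi.single v y i = 0
        exact Pi.single_eq_of_ne h y
      rw [this]
      exact continuous_const
  have hsingle : (fun y : v.adicCompletion K => finSingle129 v false y)
      = RestrictedProduct.inclusion _ _ hS ∘ f := by
    funext y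
    apply RestrictedProduct.ext
    intro i
    show finSingle129 v false y i = Pi.single v y i
    by_cases h : i = v
    · subst h
      rw [finSingle129_same]
      simp
    · rw [Pi.single_eq_of_ne h]
      have := finSingle129_of_ne v false y h
      simpa using this
  have h2 : Continuous (fun y : v.adicCompletion K => finSingle129 v false y) := by
    rw [hsingle]
    exact (RestrictedProduct.continuous_inclusion hS).comp hf
  exact continuous_const.prodMk h2

/-! ## The local component of a character of the adeles -/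

/-- The local component at `v` of a function on the adeles. -/
def psiLoc (ψ : A0.Adl K → ℂ) (y : v.adicCompletion K) : ℂ := ψ (toAdl v y)

theorem psiLoc_eq (ψ : A0.Adl K → ℂ) {x : A0.Adl K} (hx : WL.AdlAtFin v x) :
    ψ x = psiLoc v ψ (x.2 v) := by
  unfold psiLoc
  rw [← eq_toAdl_of_adlAtFin v hx]

theorem psiLoc_add {ψ : A0.Adl K → ℂ} (hψ : IsAdeleChar ψ) (y z : v.adicCompletion K) :
    psiLoc v ψ (y + z) = psiLoc v ψ y * psiLoc v ψ z := by
  unfold psiLoc
  rw [toAdl_add, hψ.map_add]

theorem psiLoc_norm {ψ : A0.Adl K → ℂ} (hψ : IsAdeleChar ψ) (y : v.adicCompletion K) :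
    ‖psiLoc v ψ y‖ = 1 := hψ.norm_one _

theorem psiLoc_continuous {ψ : A0.Adl K → ℂ} (hψ : IsAdeleChar ψ) :
    Continuous (psiLoc v ψ) := hψ.cont.comp (continuous_toAdl v)

theorem psiLoc_zero {ψ : A0.Adl K → ℂ} (hψ : IsAdeleChar ψ) : psiLoc v ψ 0 = 1 := by
  have h := psiLoc_add v hψ 0 0
  rw [add_zero] at h
  have hn : psiLoc v ψ 0 ≠ 0 := by
    intro h0
    have := psiLoc_norm v hψ 0
    rw [h0, norm_zero] at this
    exact zero_ne_one this
  have h' : psiLoc v ψ 0 * 1 = psiLoc v ψ 0 * psiLoc v ψ 0 := by rw [mul_one]; exact h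
  exact (mul_left_cancel₀ hn h').symm

theorem psiLoc_neg {ψ : A0.Adl K → ℂ} (hψ : IsAdeleChar ψ) (y : v.adicCompletion K) :
    psiLoc v ψ (-y) = (psiLoc v ψ y)⁻¹ := by
  have h := psiLoc_add v hψ y (-y)
  rw [add_neg_cancel, psiLoc_zero v hψ] at h
  exact eq_inv_of_mul_eq_one_right h.symm

theorem psiLoc_int {ψ : A0.Adl K → ℂ} (hg : GoodPsi ψ v) {y : v.adicCompletion K}
    (hy : y ∈ v.adicCompletionIntegers K) : psiLoc v ψ y = 1 := by
  unfold psiLoc
  refine hg.1 _ (adlAtFin_toAdl v y) ?_
  rw [toAdl_fin_same]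
  exact hy

theorem psiLoc_nontriv {ψ : A0.Adl K → ℂ} (hg : GoodPsi ψ v) :
    ∃ y : v.adicCompletion K, Valued.v y = WithZero.exp (1 : ℤ) ∧ psiLoc v ψ y ≠ 1 := by
  obtain ⟨x, hx, hv, hne⟩ := hg.2
  refine ⟨x.2 v, hv, ?_⟩
  rw [← psiLoc_eq v ψ hx]
  exact hne

theorem isCharL_psiLoc {ψ : A0.Adl K → ℂ} (hψ : IsAdeleChar ψ) (hg : GoodPsi ψ v) :
    IsCharL (psiLoc v ψ) := by
  obtain ⟨y, -, hy⟩ := psiLoc_nontriv v hg
  exact ⟨psiLoc_continuous v hψ, psiLoc_add v hψ, psiLoc_norm v hψ, y, hy⟩

/-! ## Ideles supported at `v` -/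

/-- The adele with component `y` at `v` and `1` at every other place. -/
def toAdlOne (y : v.adicCompletion K) : A0.Adl K := (1, finSingle129 v true y)

theorem toAdlOne_fin_same (y : v.adicCompletion K) : (toAdlOne v y).2 v = y :=
  finSingle129_same v true y

theorem toAdlOne_fin_ne (y : v.adicCompletion K) {v' : HeightOneSpectrum (𝓞 K)} (h : v' ≠ v) :
    (toAdlOne v y).2 v' = 1 := by
  have h1 : finSingle129 v true y v' = 1 := by
    have := finSingle129_of_ne v true y h
    simpa using this
  exact h1

theorem toAdlOne_inf (y : v.adicCompletion K) (w : InfinitePlace K) : (toAdlOne v y).1 w = 1 :=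
  rfl

/-- `toAdlOne` as a monoid homomorphism. -/
def toAdlOneHom : v.adicCompletion K →* A0.Adl K where
  toFun := toAdlOne v
  map_one' := by
    refine adele_ext129 (fun w => rfl) (fun v' => ?_)
    show (toAdlOne v 1).2 v' = 1
    by_cases h : v' = v
    · subst h; rw [toAdlOne_fin_same]
    · rw [toAdlOne_fin_ne v _ h]
  map_mul' y z := by
    refine adele_ext129 (fun w => ?_) (fun v' => ?_)
    · show (1 : w.Completion) = 1 * 1
      simp
    · show (toAdlOne v (y * z)).2 v' = (toAdlOne v y).2 v' * (toAdlOne v z).2 v'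
      by_cases h : v' = v
      · subst h; simp only [toAdlOne_fin_same]
      · simp only [toAdlOne_fin_ne v _ h, mul_one]

/-- The idele with component `a` at `v` and `1` at every other place. -/
def toIdele : (v.adicCompletion K)ˣ →* (A0.Adl K)ˣ := Units.map (toAdlOneHom v)

theorem coe_toIdele (a : (v.adicCompletion K)ˣ) :
    ((toIdele v a : (A0.Adl K)ˣ) : A0.Adl K) = toAdlOne v (a : v.adicCompletion K) := rfl

theorem isIdeleAt_toIdele (a : (v.adicCompletion K)ˣ) : IsIdeleAt v (toIdele v a) :=
  ⟨fun u => by rw [coe_toIdele]; rfl, fun w' h => by rw [coe_toIdele]; exact toAdlOne_fin_ne v _ h⟩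

theorem toIdele_fin_same (a : (v.adicCompletion K)ˣ) :
    ((toIdele v a : (A0.Adl K)ˣ) : A0.Adl K).2 v = (a : v.adicCompletion K) := by
  rw [coe_toIdele]; exact toAdlOne_fin_same v _

theorem isUnitIdeleAt_toIdele (a : (v.adicCompletion K)ˣ)
    (ha : Valued.v (a : v.adicCompletion K) = 1) : IsUnitIdeleAt v (toIdele v a) :=
  ⟨isIdeleAt_toIdele v a, by rw [toIdele_fin_same]; exact ha⟩

theorem isUnifIdeleAt_toIdele (a : (v.adicCompletion K)ˣ)
    (ha : Valued.v (a : v.adicCompletion K) = WithZero.exp (-1 : ℤ)) :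
    IsUnifIdeleAt v (toIdele v a) :=
  ⟨isIdeleAt_toIdele v a, by rw [toIdele_fin_same]; exact ha⟩

/-! ## The torus: local components -/

theorem map_torMat {R S : Type} [CommRing R] [CommRing S] (f : R →+* S) (t n a b : R) :
    (torMat t n a b).map f = torMat (f t) (f n) (f a) (f b) := by
  ext i j
  fin_cases i <;> fin_cases j <;> simp [torMat]

theorem torMat_one_zero {R : Type} [CommRing R] (t n : R) : torMat t n 1 0 = 1 := by
  ext i j
  fin_cases i <;> fin_cases j <;> simp [torMat]

theorem torMat_mul {R : Type} [CommRing R] (t n a b a' b' : R) :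
    torMat t n a b * torMat t n a' b'
      = torMat t n (a * a' - n * (b * b')) (a * b' + a' * b + t * (b * b')) := by
  ext i j
  fin_cases i <;> fin_cases j <;> simp [torMat, Matrix.mul_apply, Fin.sum_univ_two] <;> ring

theorem det_torMat {R : Type} [CommRing R] (t n a b : R) :
    (torMat t n a b).det = a ^ 2 + t * a * b + n * b ^ 2 := by
  simp [torMat, Matrix.det_fin_two]
  ring

theorem finComp_eq_map (κ : A0.G K) :
    A0.finComp v κ = (κ : Matrix (Fin 2) (Fin 2) (A0.Adl K)).map (evF129 v) := rfl

theorem finComp_det (κ : A0.G K) :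
    (A0.finComp v κ).det
      = ((Matrix.GeneralLinearGroup.det κ : (A0.Adl K)ˣ) : A0.Adl K).2 v := by
  rw [finComp_eq_map]
  show _ = evF129 v (κ : Matrix (Fin 2) (Fin 2) (A0.Adl K)).det
  rw [RingHom.map_det]
  rfl

theorem finComp_inv (κ : A0.G K) : A0.finComp v κ⁻¹ = (A0.finComp v κ)⁻¹ := by
  rw [← coe_finCompHom129, ← coe_finCompHom129, map_inv, Matrix.coe_units_inv]

theorem finComp_mul (g h : A0.G K) : A0.finComp v (g * h) = A0.finComp v g * A0.finComp v h := by
  rw [← coe_finCompHom129, ← coe_finCompHom129, ← coe_finCompHom129, map_mul]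
  rfl

/-- The local component of an element of the torus is in the local torus. -/
theorem inTorL_of_inTorus {t n : K} {κ : A0.G K} (h : InTorus t n κ) :
    InTorL (algebraMap K (v.adicCompletion K) t) (algebraMap K (v.adicCompletion K) n)
      (A0.finComp v κ) := by
  obtain ⟨a, b, hab⟩ := h
  refine ⟨a.2 v, b.2 v, ?_⟩
  rw [finComp_eq_map, hab, map_torMat]
  rfl

/-- An element supported at `v` whose local component is in the local torus is in the torus. -/
theorem inTorus_of_local {t n : K} {κ : A0.G K} (hloc : A0.IsLocalAtFin v κ)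
    (h : InTorL (algebraMap K (v.adicCompletion K) t) (algebraMap K (v.adicCompletion K) n)
      (A0.finComp v κ)) : InTorus t n κ := by
  obtain ⟨a, b, hab⟩ := h
  refine ⟨toAdlOne v a, toAdl v b, ?_⟩
  refine adeleMatrix_ext129 (fun w => ?_) (fun v' => ?_)
  · rw [map_torMat]
    have h1 : (κ : Matrix (Fin 2) (Fin 2) (A0.Adl K)).map (evI129 w) = 1 :=
      Matrix.ext fun i j => hloc.1 w i j
    rw [h1]
    have e1 : evI129 w (toAdlOne v a) = 1 := rfl
    have e2 : evI129 w (toAdl v b) = 0 := rfl
    rw [e1, e2, torMat_one_zero]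
  · rw [map_torMat]
    by_cases hv : v' = v
    · subst hv
      have e1 : evF129 v' (toAdlOne v' a) = a := toAdlOne_fin_same v' a
      have e2 : evF129 v' (toAdl v' b) = b := toAdl_fin_same v' b
      rw [e1, e2]
      exact hab
    · have h1 : (κ : Matrix (Fin 2) (Fin 2) (A0.Adl K)).map (evF129 v') = 1 := hloc.2 v' hv
      rw [h1]
      have e1 : evF129 v' (toAdlOne v a) = 1 := toAdlOne_fin_ne v a hv
      have e2 : evF129 v' (toAdl v b) = 0 := toAdl_fin_ne v b hv
      rw [e1, e2, torMat_one_zero]

/-- The integral points of the local torus. -/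
def torInt (t n : K) : Set (Matrix (Fin 2) (Fin 2) (v.adicCompletion K)) :=
  {κ | InTorL (algebraMap K (v.adicCompletion K) t) (algebraMap K (v.adicCompletion K) n) κ ∧
    κ.det ≠ 0 ∧ (∀ i j : Fin 2, κ i j ∈ v.adicCompletionIntegers K) ∧
    ∀ i j : Fin 2, κ⁻¹ i j ∈ v.adicCompletionIntegers K}

/-- An element supported at `v` with local component in `T(𝒪_v)` is in `T(𝒪_v)` (adelic form). -/
theorem inTorusIntAt_of_local {t n : K} {κ : A0.G K} (hloc : A0.IsLocalAtFin v κ)
    (h : A0.finComp v κ ∈ torInt v t n) : WL.InTorusIntAt t n v κ := by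
  refine ⟨inTorus_of_local v hloc h.1, hloc, h.2.2.1, ?_⟩
  intro i j
  rw [finComp_inv]
  exact h.2.2.2 i j

/-- The local component of an element of `T(𝒪_v)` (adelic form) is in `T(𝒪_v)`. -/
theorem local_of_inTorusIntAt {t n : K} {κ : A0.G K} (h : WL.InTorusIntAt t n v κ) :
    A0.finComp v κ ∈ torInt v t n := by
  refine ⟨inTorL_of_inTorus v h.1, ?_, h.2.2.1, ?_⟩
  · rw [finComp_det]
    exact (Units.map (evF129 v).toMonoidHom (Matrix.GeneralLinearGroup.det κ)).ne_zero
  · intro i j
    rw [← finComp_inv]
    exact h.2.2.2 i j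

/-- Every unit of `𝒪_v` is the determinant of an element of `T(𝒪_v)`, at a good place. -/
theorem exists_torInt_det {t n : K} {χT : A0.G K → ℂ} (hg : GoodTor t n χT v)
    {a : v.adicCompletion K} (ha : Valued.v a = 1) :
    ∃ κ ∈ torInt v t n, κ.det = a := by
  have ha0 : a ≠ 0 := by
    intro h
    rw [h, map_zero] at ha
    exact zero_ne_one ha
  obtain ⟨κ, hκ, hdet⟩ := hg.2.2 (toIdele v (Units.mk0 a ha0))
    (isUnitIdeleAt_toIdele v _ ha)
  refine ⟨A0.finComp v κ, local_of_inTorusIntAt v hκ, ?_⟩
  rw [finComp_det, hdet, toIdele_fin_same]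
  rfl

end Fermat.Agent.LT.A2.H999
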