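import Fermat.Agent.LT.A2.H999.LGLocal

/-!
# Row LT, tower A2, leaf A2.03.1.1.08 `WX467.LocGoodOfRepC` (helper999), part 2: integrals

OFF-MAIN.  Measure theory at a finite place `v`: for a Haar measure `μ` of `K_v` with
`μ(𝒪_v) = 1` and a character `ψ_v` of conductor `𝒪_v`,

* the integral of `ψ_v(c y)` over `𝒪_v` is `1` if `c ∈ 𝒪_v` and `0` otherwise;
* the Fourier transform of `stdFn v` (for the bilinear form of `x² + t x y + n y²`, `t`, `n`
  integral, `t² - 4 n` a unit) is `stdFn v`;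
* the rescaling of the local axioms.
-/

set_option autoImplicit false

open IsDedekindDomain NumberField AutomorphicForm MeasureTheory
open scoped MatrixGroups Topology RestrictedProduct

noncomputable section

namespace Fermat.Agent.LT.A2.H999

open Fermat.Agent.LT.H130 Fermat.Agent.LT.H556 Fermat.Agent.LT.A2 Fermat.Agent.LT.A2.WX467
open Fermat.Agent.LT.H129

variable {K : Type} [Field K] [NumberField K] (v : HeightOneSpectrum (𝓞 K))

/-- The Borel σ-algebra of `K_v` (local). -/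
local instance borelMS999 : MeasurableSpace (v.adicCompletion K) := borel _

local instance borelSp999 : BorelSpace (v.adicCompletion K) := ⟨rfl⟩

local instance secCount999 : SecondCountableTopology (v.adicCompletion K) :=
  Fermat.Agent.LT.H11.SC.secondCountableTopology_adicCompletion_h11 K v

local instance locCpt999 : LocallyCompactSpace (v.adicCompletion K) :=
  Fermat.Agent.LT.H11.LC.locallyCompactSpace_adicCompletion_h11 K v

/-- The set `𝒪_v`. -/
def intSet : Set (v.adicCompletion K) := (v.adicCompletionIntegers K : Set (v.adicCompletion K))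

theorem mem_intSet {x : v.adicCompletion K} : x ∈ intSet v ↔ Valued.v x ≤ 1 :=
  HeightOneSpectrum.mem_adicCompletionIntegers (𝓞 K) K v

theorem mem_intSet' {x : v.adicCompletion K} : x ∈ intSet v ↔ x ∈ v.adicCompletionIntegers K :=
  Iff.rfl

theorem isOpen_intSet : IsOpen (intSet v) := Valued.isOpen_valuationSubring _

theorem isCompact_intSet : IsCompact (intSet v) :=
  Fermat.Agent.LT.H11.LC.isCompact_integers_h11 K v

theorem measurableSet_intSet : MeasurableSet (intSet v) := (isOpen_intSet v).measurableSet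

theorem zero_mem_intSet : (0 : v.adicCompletion K) ∈ intSet v := zero_mem _

theorem one_mem_intSet : (1 : v.adicCompletion K) ∈ intSet v := one_mem _

theorem add_mem_intSet {x y : v.adicCompletion K} (hx : x ∈ intSet v) (hy : y ∈ intSet v) :
    x + y ∈ intSet v := add_mem hx hy

theorem mul_mem_intSet {x y : v.adicCompletion K} (hx : x ∈ intSet v) (hy : y ∈ intSet v) :
    x * y ∈ intSet v := mul_mem hx hy

theorem neg_mem_intSet {x : v.adicCompletion K} (hx : x ∈ intSet v) : -x ∈ intSet v :=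
  neg_mem hx

theorem sub_mem_intSet {x y : v.adicCompletion K} (hx : x ∈ intSet v) (hy : y ∈ intSet v) :
    x - y ∈ intSet v := sub_mem hx hy

/-! ## Haar measures -/

section Haar

variable {v}
variable {μ : Measure (v.adicCompletion K)}

theorem haar_addLeftInv (hμ : IsHaarL μ) : μ.IsAddLeftInvariant := by
  refine ⟨fun x => ?_⟩
  ext S hS
  rw [Measure.map_apply (measurable_const_add x) hS]
  have h := hμ.1 (-x) S
  have hset : (fun y => x + y) ⁻¹' S = (fun y => -x + y) '' S := by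
    ext y
    constructor
    · intro hy
      exact ⟨x + y, hy, by simp⟩
    · rintro ⟨z, hz, rfl⟩
      show x + (-x + z) ∈ S
      simpa using hz
  rw [hset]
  exact h

theorem haar_finiteOnCompacts (hμ : IsHaarL μ) : IsFiniteMeasureOnCompacts μ :=
  ⟨fun _ hC => hμ.2.1 _ hC⟩

theorem haar_sigmaFinite (hμ : IsHaarL μ) : SigmaFinite μ := by
  have := haar_finiteOnCompacts hμ
  infer_instance

theorem haar_int_pos (hμ : IsHaarL μ) : 0 < μ (intSet v) :=
  hμ.2.2 _ (isOpen_intSet v) ⟨0, zero_mem_intSet v⟩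

theorem haar_int_lt_top (hμ : IsHaarL μ) : μ (intSet v) < ⊤ :=
  hμ.2.1 _ (isCompact_intSet v)

theorem isHaarL_smul (hμ : IsHaarL μ) {s : ENNReal} (hs0 : s ≠ 0) (hs : s ≠ ⊤) :
    IsHaarL (s • μ) := by
  refine ⟨fun x S => ?_, fun C hC => ?_, fun U hU hne => ?_⟩
  · show s * μ _ = s * μ S
    rw [hμ.1 x S]
  · show s * μ C < ⊤
    exact ENNReal.mul_lt_top (lt_top_iff_ne_top.mpr hs) (hμ.2.1 C hC)
  · show 0 < s * μ U
    exact ENNReal.mul_pos hs0 (hμ.2.2 U hU hne).ne'

end Haar

/-! ## Characters of conductor `𝒪_v` -/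

/-- `ψ` is an additive unitary continuous character of `K_v` with conductor `𝒪_v`. -/
structure IsStdChar (ψ : v.adicCompletion K → ℂ) : Prop where
  cont : Continuous ψ
  add : ∀ x y : v.adicCompletion K, ψ (x + y) = ψ x * ψ y
  norm : ∀ x : v.adicCompletion K, ‖ψ x‖ = 1
  int : ∀ x : v.adicCompletion K, x ∈ intSet v → ψ x = 1
  nontriv : ∃ x : v.adicCompletion K, Valued.v x = WithZero.exp (1 : ℤ) ∧ ψ x ≠ 1

theorem isStdChar_psiLoc {ψ : A0.Adl K → ℂ} (hψ : IsAdeleChar ψ) (hg : GoodPsi ψ v) :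
    IsStdChar v (psiLoc v ψ) :=
  ⟨psiLoc_continuous v hψ, psiLoc_add v hψ, psiLoc_norm v hψ,
    fun _ hx => psiLoc_int v hg hx, psiLoc_nontriv v hg⟩

section Char

variable {v}
variable {ψ : v.adicCompletion K → ℂ}

theorem IsStdChar.isCharL (hψ : IsStdChar v ψ) : IsCharL ψ := by
  obtain ⟨x, -, hx⟩ := hψ.nontriv
  exact ⟨hψ.cont, hψ.add, hψ.norm, x, hx⟩

theorem IsStdChar.zero (hψ : IsStdChar v ψ) : ψ 0 = 1 := hψ.int 0 (zero_mem_intSet v)

/-- If `c ∉ 𝒪_v` then `ψ(c ·)` is not trivial on `𝒪_v`. -/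
theorem IsStdChar.exists_ne_one (hψ : IsStdChar v ψ) {c : v.adicCompletion K}
    (hc : c ∉ intSet v) : ∃ y ∈ intSet v, ψ (c * y) ≠ 1 := by
  obtain ⟨x, hx, hne⟩ := hψ.nontriv
  have hc0 : c ≠ 0 := by
    rintro rfl
    exact hc (zero_mem_intSet v)
  have hcv : (1 : WithZero (Multiplicative ℤ)) < Valued.v c := by
    rw [mem_intSet] at hc
    exact not_le.mp hc
  have hcv' : WithZero.exp (1 : ℤ) ≤ Valued.v c := by
    have hne0 : Valued.v c ≠ 0 := (Valuation.ne_zero_iff _).mpr hc0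
    obtain ⟨m, hm⟩ : ∃ m : ℤ, Valued.v c = WithZero.exp m := ⟨WithZero.log (Valued.v c),
      (WithZero.exp_log hne0).symm⟩
    rw [hm] at hcv ⊢
    rw [← WithZero.exp_zero, WithZero.exp_lt_exp] at hcv
    rw [WithZero.exp_le_exp]
    omega
  refine ⟨c⁻¹ * x, ?_, ?_⟩
  · rw [mem_intSet, map_mul, map_inv₀, hx]
    have hne0 : Valued.v c ≠ 0 := (Valuation.ne_zero_iff _).mpr hc0
    rw [inv_mul_le_iff₀ (zero_lt_iff.mpr hne0), mul_one]
    exact hcv'
  · rw [← mul_assoc, mul_inv_cancel₀ hc0, one_mul]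
    exact hne

end Char

/-! ## The integral of a character over `𝒪_v` -/

section CharInt

variable {v}
variable {μ : Measure (v.adicCompletion K)} {ψ : v.adicCompletion K → ℂ}

/-- The integral over `𝒪_v` is invariant under the translations by the elements of `𝒪_v`. -/
theorem setIntegral_int_translate (hμ : IsHaarL μ) (f : v.adicCompletion K → ℂ)
    {y₀ : v.adicCompletion K} (hy₀ : y₀ ∈ intSet v) :
    ∫ y in intSet v, f (y₀ + y) ∂μ = ∫ y in intSet v, f y ∂μ := by
  have hinv := haar_addLeftInv hμ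
  rw [← integral_indicator (measurableSet_intSet v), ← integral_indicator (measurableSet_intSet v)]
  rw [← integral_add_left_eq_self (μ := μ) ((intSet v).indicator f) y₀]
  congr 1
  funext y
  by_cases hy : y ∈ intSet v
  · have hy' : y₀ + y ∈ intSet v := add_mem_intSet v hy₀ hy
    rw [Set.indicator_of_mem hy, Set.indicator_of_mem hy']
  · have hy' : y₀ + y ∉ intSet v := by
      intro h
      apply hy
      have := sub_mem_intSet v h hy₀
      simpa using this
    rw [Set.indicator_of_notMem hy, Set.indicator_of_notMem hy']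

/-- `∫_{𝒪_v} ψ(c y) dy = μ(𝒪_v)` if `c ∈ 𝒪_v`. -/
theorem setIntegral_char_of_mem (hψ : IsStdChar v ψ) {c : v.adicCompletion K}
    (hc : c ∈ intSet v) :
    ∫ y in intSet v, ψ (c * y) ∂μ = ((μ (intSet v)).toReal : ℂ) := by
  have h1 : ∫ y in intSet v, ψ (c * y) ∂μ = ∫ _y in intSet v, (1 : ℂ) ∂μ := by
    refine setIntegral_congr_fun (measurableSet_intSet v) ?_
    intro y hy
    exact hψ.int _ (mul_mem_intSet v hc hy)
  rw [h1, setIntegral_const]
  simp [Measure.real]

/-- `∫_{𝒪_v} ψ(c y) dy = 0` if `c ∉ 𝒪_v`. -/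
theorem setIntegral_char_of_notMem (hμ : IsHaarL μ) (hψ : IsStdChar v ψ)
    {c : v.adicCompletion K} (hc : c ∉ intSet v) :
    ∫ y in intSet v, ψ (c * y) ∂μ = 0 := by
  obtain ⟨y₀, hy₀, hne⟩ := hψ.exists_ne_one hc
  have h := setIntegral_int_translate hμ (fun y => ψ (c * y)) hy₀
  have h2 : ∫ y in intSet v, ψ (c * (y₀ + y)) ∂μ
      = ψ (c * y₀) * ∫ y in intSet v, ψ (c * y) ∂μ := by
    rw [← integral_const_mul]
    congr 1
    funext y
    rw [mul_add, hψ.add]
  rw [h2] at h
  have h3 : (ψ (c * y₀) - 1) * ∫ y in intSet v, ψ (c * y) ∂μ = 0 := by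
    rw [sub_mul, h, one_mul, sub_self]
  rcases mul_eq_zero.mp h3 with h4 | h4
  · exact absurd (sub_eq_zero.mp h4) hne
  · exact h4

end CharInt

/-! ## The Fourier transform of `stdFn v` -/

section FT

variable {v}
variable {μ : Measure (v.adicCompletion K)} {ψ : v.adicCompletion K → ℂ}

theorem bfL_eq (t n : v.adicCompletion K) (ξ y : v.adicCompletion K × v.adicCompletion K) :
    bfL t n ξ y = (2 * ξ.1 + t * ξ.2) * y.1 + (t * ξ.1 + 2 * n * ξ.2) * y.2 := by
  unfold bfL qfL
  simp only [Prod.fst_add, Prod.snd_add]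
  ring

theorem stdFn_of_mem {y : v.adicCompletion K × v.adicCompletion K} (h1 : y.1 ∈ intSet v)
    (h2 : y.2 ∈ intSet v) : stdFn v y = 1 := by
  unfold stdFn
  exact if_pos ⟨h1, h2⟩

theorem stdFn_of_notMem {y : v.adicCompletion K × v.adicCompletion K}
    (h : ¬ (y.1 ∈ intSet v ∧ y.2 ∈ intSet v)) : stdFn v y = 0 := by
  unfold stdFn
  exact if_neg h

theorem stdFn_mul_eq_indicator (h : v.adicCompletion K × v.adicCompletion K → ℂ)
    (y : v.adicCompletion K × v.adicCompletion K) :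
    stdFn v y * h y = (intSet v ×ˢ intSet v).indicator h y := by
  by_cases hy : y.1 ∈ intSet v ∧ y.2 ∈ intSet v
  · rw [stdFn_of_mem hy.1 hy.2, one_mul, Set.indicator_of_mem (Set.mem_prod.mpr hy)]
  · rw [stdFn_of_notMem hy, zero_mul, Set.indicator_of_notMem]
    exact fun h' => hy (Set.mem_prod.mp h')

/-- The integral of `stdFn v · h` is the integral of `h` over `𝒪_v × 𝒪_v`. -/
theorem intL_std_mul (hμ : IsHaarL μ) (h : v.adicCompletion K × v.adicCompletion K → ℂ) :
    intL μ (fun y => stdFn v y * h y)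
      = ∫ y, h y ∂((μ.restrict (intSet v)).prod (μ.restrict (intSet v))) := by
  have := haar_sigmaFinite hμ
  unfold intL
  rw [Measure.prod_restrict]
  rw [← integral_indicator ((measurableSet_intSet v).prod (measurableSet_intSet v))]
  congr 1
  funext y
  exact stdFn_mul_eq_indicator h y

theorem intL_std_mul_char (hμ : IsHaarL μ) (hψ : IsStdChar v ψ) (c₁ c₂ : v.adicCompletion K) :
    intL μ (fun y => stdFn v y * ψ (c₁ * y.1 + c₂ * y.2))
      = (∫ y in intSet v, ψ (c₁ * y) ∂μ) * ∫ y in intSet v, ψ (c₂ * y) ∂μ := by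
  have := haar_sigmaFinite hμ
  rw [intL_std_mul hμ]
  rw [← integral_prod_mul]
  congr 1
  funext y
  exact hψ.add _ _

theorem mem_intSet_of_unit_mul {d x : v.adicCompletion K} (hd : Valued.v d = 1)
    (h : d * x ∈ intSet v) : x ∈ intSet v := by
  rw [mem_intSet, map_mul, hd, one_mul] at h
  exact (mem_intSet v).mpr h

theorem two_mem_intSet : (2 : v.adicCompletion K) ∈ intSet v := by
  have : (2 : v.adicCompletion K) = 1 + 1 := by norm_num
  rw [this]
  exact add_mem_intSet v (one_mem_intSet v) (one_mem_intSet v)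

/-- The arithmetic of a good place, in local terms. -/
structure IsGoodQ (t n : v.adicCompletion K) : Prop where
  t_int : t ∈ intSet v
  n_int : n ∈ intSet v
  disc : Valued.v (t ^ 2 - 4 * n) = 1

theorem IsGoodQ.grad_mem {t n : v.adicCompletion K} (hq : IsGoodQ t n)
    {ξ : v.adicCompletion K × v.adicCompletion K} (h1 : ξ.1 ∈ intSet v) (h2 : ξ.2 ∈ intSet v) :
    2 * ξ.1 + t * ξ.2 ∈ intSet v ∧ t * ξ.1 + 2 * n * ξ.2 ∈ intSet v :=
  ⟨add_mem_intSet v (mul_mem_intSet v two_mem_intSet h1) (mul_mem_intSet v hq.t_int h2),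
    add_mem_intSet v (mul_mem_intSet v hq.t_int h1)
      (mul_mem_intSet v (mul_mem_intSet v two_mem_intSet hq.n_int) h2)⟩

theorem IsGoodQ.mem_of_grad_mem {t n : v.adicCompletion K} (hq : IsGoodQ t n)
    {ξ : v.adicCompletion K × v.adicCompletion K} (h1 : 2 * ξ.1 + t * ξ.2 ∈ intSet v)
    (h2 : t * ξ.1 + 2 * n * ξ.2 ∈ intSet v) : ξ.1 ∈ intSet v ∧ ξ.2 ∈ intSet v := by
  constructor
  · refine mem_intSet_of_unit_mul hq.disc ?_
    have e : (t ^ 2 - 4 * n) * ξ.1
        = t * (t * ξ.1 + 2 * n * ξ.2) - 2 * n * (2 * ξ.1 + t * ξ.2) := by ring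
    rw [e]
    exact sub_mem_intSet v (mul_mem_intSet v hq.t_int h2)
      (mul_mem_intSet v (mul_mem_intSet v two_mem_intSet hq.n_int) h1)
  · refine mem_intSet_of_unit_mul hq.disc ?_
    have e : (t ^ 2 - 4 * n) * ξ.2
        = t * (2 * ξ.1 + t * ξ.2) - 2 * (t * ξ.1 + 2 * n * ξ.2) := by ring
    rw [e]
    exact sub_mem_intSet v (mul_mem_intSet v hq.t_int h1)
      (mul_mem_intSet v two_mem_intSet h2)

theorem IsGoodQ.qfL_mem {t n : v.adicCompletion K} (hq : IsGoodQ t n)
    {ξ : v.adicCompletion K × v.adicCompletion K} (h1 : ξ.1 ∈ intSet v) (h2 : ξ.2 ∈ intSet v) :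
    qfL t n ξ ∈ intSet v := by
  unfold qfL
  refine add_mem_intSet v (add_mem_intSet v ?_ ?_) ?_
  · rw [pow_two]; exact mul_mem_intSet v h1 h1
  · exact mul_mem_intSet v (mul_mem_intSet v hq.t_int h1) h2
  · rw [pow_two]; exact mul_mem_intSet v hq.n_int (mul_mem_intSet v h2 h2)

/-- **The Fourier transform of `stdFn v` is `stdFn v`** (`μ(𝒪_v) = 1`, `ψ` of conductor
`𝒪_v`, good `t`, `n`). -/
theorem ft_stdFn (hμ : IsHaarL μ) (hμ1 : μ (intSet v) = 1) (hψ : IsStdChar v ψ)
    {t n : v.adicCompletion K} (hq : IsGoodQ t n)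
    (ξ : v.adicCompletion K × v.adicCompletion K) :
    intL μ (fun y => stdFn v y * ψ (bfL t n ξ y)) = stdFn v ξ := by
  have e : (fun y : v.adicCompletion K × v.adicCompletion K => stdFn v y * ψ (bfL t n ξ y))
      = fun y => stdFn v y * ψ ((2 * ξ.1 + t * ξ.2) * y.1 + (t * ξ.1 + 2 * n * ξ.2) * y.2) := by
    funext y
    rw [bfL_eq]
  rw [e, intL_std_mul_char hμ hψ]
  by_cases hξ : ξ.1 ∈ intSet v ∧ ξ.2 ∈ intSet v
  · obtain ⟨h1, h2⟩ := hq.grad_mem hξ.1 hξ.2
    rw [setIntegral_char_of_mem hψ h1, setIntegral_char_of_mem hψ h2, hμ1,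
      stdFn_of_mem hξ.1 hξ.2]
    simp
  · rw [stdFn_of_notMem hξ]
    by_cases h1 : 2 * ξ.1 + t * ξ.2 ∈ intSet v
    · have h2 : t * ξ.1 + 2 * n * ξ.2 ∉ intSet v := fun h2 => hξ (hq.mem_of_grad_mem h1 h2)
      rw [setIntegral_char_of_notMem hμ hψ h2, mul_zero]
    · rw [setIntegral_char_of_notMem hμ hψ h1, zero_mul]

end FT

/-! ## Rescaling -/

section Rescale

variable {v}
variable {μ : Measure (v.adicCompletion K)}

theorem intL_smul (hμ : IsHaarL μ) (s : ENNReal)
    (f : v.adicCompletion K × v.adicCompletion K → ℂ) :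
    intL (s • μ) f = ((s.toReal ^ 2 : ℝ) : ℂ) * intL μ f := by
  have := haar_sigmaFinite hμ
  unfold intL
  rw [Measure.prod_smul_left, Measure.prod_smul_right, integral_smul_measure,
    integral_smul_measure, smul_smul]
  rw [pow_two]
  simp only [Complex.real_smul]

theorem integrableL_smul {s : ENNReal} (hs : s ≠ ⊤)
    {f : v.adicCompletion K × v.adicCompletion K → ℂ} (hμ : IsHaarL μ) (hf : IntegrableL μ f) :
    IntegrableL (s • μ) f := by
  have := haar_sigmaFinite hμ
  unfold IntegrableL at hf ⊢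
  rw [Measure.prod_smul_left, Measure.prod_smul_right]
  exact (hf.smul_measure hs).smul_measure hs

/-- **Rescaling**: `(μ, γ) ↦ (s μ, s⁻² γ)` preserves the local axioms. -/
theorem locAx_rescale {absv : v.adicCompletion K → ℝ} {t n : v.adicCompletion K}
    {ψ : v.adicCompletion K → ℂ} {γ : ℂ} {η : v.adicCompletion K → ℂ}
    {F : Matrix (Fin 2) (Fin 2) (v.adicCompletion K) →
      Matrix (Fin 2) (Fin 2) (v.adicCompletion K) →
      v.adicCompletion K × v.adicCompletion K → ℂ}
    (h : LocAx absv t n ψ μ γ η F) {s : ENNReal} (hs0 : s ≠ 0) (hs : s ≠ ⊤) :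
    LocAx absv t n ψ (s • μ) (γ * (((s.toReal ^ 2 : ℝ) : ℂ))⁻¹) η F where
  unip := h.unip
  weyl := by
    intro g m ξ hgm
    rw [h.weyl g m ξ hgm, intL_smul h.haar]
    have hs2 : ((s.toReal ^ 2 : ℝ) : ℂ) ≠ 0 := by
      have : s.toReal ≠ 0 := ENNReal.toReal_ne_zero.mpr ⟨hs0, hs⟩
      exact_mod_cast pow_ne_zero 2 this
    field_simp
  diag := h.diag
  tor := h.tor
  eta_mul := h.eta_mul
  eta_sq := h.eta_sq
  eta_norm := h.eta_norm
  eta_cont := h.eta_cont
  haar := isHaarL_smul h.haar hs0 hs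
  psi_char := h.psi_char
  cont := h.cont
  integrable := fun g m hgm => integrableL_smul hs h.haar (h.integrable g m hgm)

end Rescale

end Fermat.Agent.LT.A2.H999
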